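/-
Cluster GAL, block E (owner helper203): the Kummer model `W N n` of `J₀(N)[n]`.

* `kum N n`   : units `u` of `FN N = ℚ̄(X₀(N))` whose divisor is divisible by `n`
* `W N n`     : `kum N n` modulo `n`-th powers, written additively
* `galU`      : the action of `G_ℚ` on units (coefficientwise on `q`-expansions)
* `heckeU`    : the multiplicative Hecke operator `u ↦ Norm_α (β u)`
-/
import Fermat.Agent.GAL.KLStatement
import Fermat.Agent.S24.FFOne
import Fermat.Agent.S24.Defs
import Fermat.Prelude.Def_ModularCurve_HeckeOperator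

set_option autoImplicit false

noncomputable section

namespace Fermat.Agent.GAL.E

open ModularCurve AlgebraicCurve Fermat.Agent.S24

/-- The absolute Galois group of `ℚ`. -/
abbrev GQ : Type := Kbar ≃ₐ[ℚ] Kbar

/-- The divisor of `u` is divisible by `n`. -/
def IsKum (N n : ℕ) (u : FN N) : Prop := ∀ v : Place Kbar (FN N), (n : ℤ) ∣ v.ord u

theorem IsKum.mul {N n : ℕ} {a b : FN N} (ha : IsKum N n a) (hb : IsKum N n b) :
    IsKum N n (a * b) := by
  intro v
  rcases eq_or_ne a 0 with rfl | ha0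
  · simp
  rcases eq_or_ne b 0 with rfl | hb0
  · simp
  rw [v.ord_mul ha0 hb0]
  exact dvd_add (ha v) (hb v)

theorem IsKum.inv {N n : ℕ} {a : FN N} (ha : IsKum N n a) : IsKum N n a⁻¹ := by
  intro v
  rw [v.ord_inv]
  exact (dvd_neg).2 (ha v)

theorem IsKum.div {N n : ℕ} {a b : FN N} (ha : IsKum N n a) (hb : IsKum N n b) :
    IsKum N n (a / b) := by
  rw [div_eq_mul_inv]
  exact ha.mul hb.inv

theorem isKum_one (N n : ℕ) : IsKum N n 1 := fun v => by simp

theorem IsKum.pow {N n : ℕ} {a : FN N} (ha : IsKum N n a) (m : ℕ) : IsKum N n (a ^ m) := by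
  induction m with
  | zero => simpa using isKum_one N n
  | succ m ih => rw [pow_succ]; exact ih.mul ha

theorem isKum_pow_self (N n : ℕ) (a : FN N) : IsKum N n (a ^ n) := by
  intro v
  rw [FF.ord_pow]
  exact dvd_mul_right _ _

theorem isKum_algebraMap (N n : ℕ) (c : Kbar) : IsKum N n (algebraMap Kbar (FN N) c) := by
  intro v
  rw [FF.ord_algebraMap]
  exact dvd_zero _

/-- The group of Kummer units. -/
def kum (N n : ℕ) : Subgroup (FN N)ˣ where
  carrier := {u | IsKum N n (u : FN N)}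
  one_mem' := isKum_one N n
  mul_mem' := by
    intro a b ha hb
    show IsKum N n ((a * b : (FN N)ˣ) : FN N)
    rw [Units.val_mul]
    exact IsKum.mul ha hb
  inv_mem' := by
    intro a ha
    show IsKum N n ((a⁻¹ : (FN N)ˣ) : FN N)
    rw [Units.val_inv_eq_inv_val]
    exact IsKum.inv ha

theorem mem_kum {N n : ℕ} {u : (FN N)ˣ} : u ∈ kum N n ↔ IsKum N n (u : FN N) := Iff.rfl

/-- The `n`-th powers. -/
def pows (N n : ℕ) : Subgroup (FN N)ˣ := (powMonoidHom n : (FN N)ˣ →* (FN N)ˣ).range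

theorem mem_pows {N n : ℕ} {u : (FN N)ˣ} : u ∈ pows N n ↔ ∃ w : (FN N)ˣ, w ^ n = u := Iff.rfl

theorem pows_le_kum (N n : ℕ) : pows N n ≤ kum N n := by
  rintro _ ⟨w, rfl⟩
  show IsKum N n (((w ^ n : (FN N)ˣ)) : FN N)
  rw [Units.val_pow_eq_pow_val]
  exact isKum_pow_self N n _

/-- a unit which is an `n`-th power in the field is an `n`-th power of a unit -/
theorem mem_pows_of_eq_pow {N n : ℕ} {u : (FN N)ˣ} {w : FN N} (h : (u : FN N) = w ^ n) :
    u ∈ pows N n := by
  rcases Nat.eq_zero_or_pos n with rfl | hn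
  · exact ⟨1, Units.ext (by simpa using h.symm)⟩
  have hw : w ≠ 0 := by
    rintro rfl
    rw [zero_pow hn.ne'] at h
    exact u.ne_zero h
  exact ⟨Units.mk0 w hw, Units.ext (by rw [powMonoidHom_apply, Units.val_pow_eq_pow_val,
    Units.val_mk0, h])⟩

/-- The Kummer model of `J₀(N)[n]` (multiplicative version). -/
abbrev Wm (N n : ℕ) : Type := kum N n ⧸ (pows N n).subgroupOf (kum N n)

/-- The Kummer model of `J₀(N)[n]`, written additively. -/
abbrev W (N n : ℕ) : Type := Additive (Wm N n)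

/-- The class of a Kummer unit. -/
def cls {N n : ℕ} (u : kum N n) : W N n := Additive.ofMul (QuotientGroup.mk u)

theorem cls_surjective {N n : ℕ} : Function.Surjective (cls (N := N) (n := n)) := by
  intro x
  obtain ⟨u, hu⟩ := QuotientGroup.mk_surjective (Additive.toMul x)
  exact ⟨u, by rw [cls, hu]; rfl⟩

theorem cls_mul {N n : ℕ} (u v : kum N n) : cls (u * v) = cls u + cls v := rfl

theorem cls_one {N n : ℕ} : cls (1 : kum N n) = 0 := rfl

theorem cls_inv {N n : ℕ} (u : kum N n) : cls u⁻¹ = - cls u := rfl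

theorem cls_pow {N n : ℕ} (u : kum N n) (m : ℕ) : cls (u ^ m) = m • cls u := rfl

theorem cls_eq_zero_iff {N n : ℕ} (u : kum N n) : cls u = 0 ↔ (u : (FN N)ˣ) ∈ pows N n := by
  show (QuotientGroup.mk u : Wm N n) = 1 ↔ _
  rw [QuotientGroup.eq_one_iff, Subgroup.mem_subgroupOf]

theorem nsmul_W {N n : ℕ} (x : W N n) : n • x = 0 := by
  obtain ⟨u, rfl⟩ := cls_surjective x
  rw [← cls_pow, cls_eq_zero_iff]
  exact ⟨u, rfl⟩

/-- An endomorphism of the unit group preserving Kummer units induces an endomorphism of `W`. -/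
def mapW {N n : ℕ} (f : (FN N)ˣ →* (FN N)ˣ) (hf : ∀ u ∈ kum N n, f u ∈ kum N n) :
    W N n →+ W N n :=
  MonoidHom.toAdditive <|
    QuotientGroup.map _ _ ((f.comp (kum N n).subtype).codRestrict (kum N n) fun u => hf u u.2) (by
      rintro ⟨u, hu⟩ ⟨w, hw⟩
      refine ⟨f w, ?_⟩
      show f w ^ n = f u
      rw [← map_pow]
      exact congrArg f hw)

theorem mapW_cls {N n : ℕ} (f : (FN N)ˣ →* (FN N)ˣ) (hf : ∀ u ∈ kum N n, f u ∈ kum N n)
    (u : kum N n) : mapW f hf (cls u) = cls ⟨f u, hf u u.2⟩ := rfl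

/-- The coefficientwise action of `σ ∈ G_ℚ` on `FN N`. -/
def galF (N : ℕ) (σ : GQ) : FN N ≃+* FN N :=
  arithmeticRingAut (modularFunctionFieldFull N) σ

theorem coe_galF (N : ℕ) (σ : GQ) (x : FN N) :
    (galF N σ x : LaurentSeries Kbar) = coeffMap (σ : Kbar →+* Kbar) (x : LaurentSeries Kbar) := rfl

theorem galF_mul (N : ℕ) (σ τ : GQ) (x : FN N) : galF N (σ * τ) x = galF N σ (galF N τ x) := by
  apply Subtype.ext
  rw [coe_galF, coe_galF, coe_galF, coeffMap_coeffMap]
  exact coeffMap_congr (RingHom.ext fun _ => rfl) _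

theorem galF_one (N : ℕ) (x : FN N) : galF N 1 x = x := by
  apply Subtype.ext
  rw [coe_galF, show ((1 : GQ) : Kbar →+* Kbar) = RingHom.id Kbar from RingHom.ext fun _ => rfl,
    coeffMap_id]

theorem galF_algebraMap (N : ℕ) (σ : GQ) (c : Kbar) :
    galF N σ (algebraMap Kbar (FN N) c) = algebraMap Kbar (FN N) (σ c) :=
  arithmeticRingAut_algebraMap _ σ c

/-- The action of `G_ℚ` on units. -/
def galU (N : ℕ) (σ : GQ) : (FN N)ˣ →* (FN N)ˣ :=
  Units.map ((galF N σ : FN N →+* FN N) : FN N →* FN N)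

theorem coe_galU (N : ℕ) (σ : GQ) (u : (FN N)ˣ) : ((galU N σ u : (FN N)ˣ) : FN N) = galF N σ u :=
  rfl

theorem IsKum.galF {N n : ℕ} {u : FN N} (hu : IsKum N n u) (σ : GQ) :
    IsKum N n (galF N σ u) := by
  intro v
  set g := arithmeticGalois (L := Kbar) (modularFunctionFieldFull N) σ with hg
  have h := SemilinearAut.ord_smul g (g⁻¹ • v) u
  rw [smul_inv_smul] at h
  have h2 : g • u = E.galF N σ u := rfl
  rw [← h2, h]
  exact hu _

theorem galU_mem_kum {N n : ℕ} (σ : GQ) (u : (FN N)ˣ) (hu : u ∈ kum N n) :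
    galU N σ u ∈ kum N n := IsKum.galF hu σ

/-- The Galois representation on the Kummer model. -/
def rho (N n : ℕ) : GQ →* AddMonoid.End (W N n) where
  toFun σ := mapW (galU N σ) (galU_mem_kum σ)
  map_one' := by
    refine AddMonoidHom.ext fun x => ?_
    obtain ⟨u, rfl⟩ := cls_surjective x
    rw [mapW_cls]
    refine congrArg cls (Subtype.ext (Units.ext ?_))
    exact galF_one N _
  map_mul' σ τ := by
    refine AddMonoidHom.ext fun x => ?_
    obtain ⟨u, rfl⟩ := cls_surjective x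
    show mapW (galU N (σ * τ)) (galU_mem_kum _) (cls u) =
      mapW (galU N σ) (galU_mem_kum σ) (mapW (galU N τ) (galU_mem_kum τ) (cls u))
    rw [mapW_cls, mapW_cls, mapW_cls]
    refine congrArg cls (Subtype.ext (Units.ext ?_))
    exact galF_mul N σ τ _

theorem rho_apply {N n : ℕ} (σ : GQ) : rho N n σ = mapW (galU N σ) (galU_mem_kum σ) := rfl

theorem rho_cls {N n : ℕ} (σ : GQ) (u : kum N n) :
    rho N n σ (cls u) =
      cls (⟨galU N σ (u : (FN N)ˣ), galU_mem_kum σ (u : (FN N)ˣ) u.2⟩ : kum N n) :=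
  mapW_cls (galU N σ) (galU_mem_kum σ) u

section Hecke

variable (N ℓ : ℕ) [NeZero N] [NeZero ℓ]

/-- `FN (N * ℓ)` as an algebra over `FN N` through the inclusion `α`. -/
abbrev algAlpha : Algebra (FN N) (FN (N * ℓ)) :=
  (heckeAlphaBar Kbar N ℓ).toRingHom.toAlgebra

/-- The norm along `α`. -/
def normAlpha : FN (N * ℓ) →* FN N :=
  letI := algAlpha N ℓ
  Algebra.norm (FN N)

/-- The multiplicative Hecke operator on the function field: `u ↦ Norm_α (β u)`,
i.e. `u(τ) ↦ u(ℓ τ) ∏_b u((τ + b) / ℓ)`. -/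
def heckeF : FN N →* FN N :=
  (normAlpha N ℓ).comp ((heckeBetaBar Kbar N ℓ : FN N →+* FN (N * ℓ)) : FN N →* FN (N * ℓ))

/-- The multiplicative Hecke operator on units. -/
def heckeU : (FN N)ˣ →* (FN N)ˣ := Units.map (heckeF N ℓ)

theorem coe_heckeU (u : (FN N)ˣ) : ((heckeU N ℓ u : (FN N)ˣ) : FN N) = heckeF N ℓ u := rfl

end Hecke

section Reduction

variable (A : ValuationSubring Kbar)

/-- The inclusion `A((q)) → ℚ̄((q))`. -/
abbrev incl : LaurentSeries A →+* LaurentSeries Kbar := coeffMap A.subtype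

/-- The reduction `A((q)) → k((q))`. -/
abbrev red : LaurentSeries A →+* LaurentSeries (IsLocalRing.ResidueField A) :=
  coeffMap (IsLocalRing.residue A)

end Reduction

end Fermat.Agent.GAL.E

end
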