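/-
Cluster GAL, block E, node E8 (owner helper96): every element of `FN N`, hence every class of the
Kummer model `W N n`, is fixed by an open subgroup of `G_ℚ`; if `W N n` is finite, the whole
representation `rho N n` factors through a number field.
-/
import Fermat.Agent.GAL.E.Defs
import Fermat.Agent.S18.Descent.Union

set_option autoImplicit false

noncomputable section

namespace Fermat.Agent.GAL.E

open ModularCurve AlgebraicCurve Fermat.Agent.S24

/-- every element of `FN N` is fixed by an open subgroup of `G_ℚ` -/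
theorem exists_finite_level (N : ℕ) (u : FN N) :
    ∃ L : IntermediateField ℚ Kbar, FiniteDimensional ℚ L ∧
      ∀ σ : GQ, (∀ x ∈ L, σ x = x) → galF N σ u = u := by
  have halg : Algebra.IsAlgebraic ℚ Kbar := AlgebraicClosure.isAlgebraic ℚ
  obtain ⟨K₀, hK₀, y, -, hy⟩ :=
    Fermat.Agent.S18.Descent.exists_definedOver (Ω := Kbar) (F₀ := modularFunctionFieldFull N)
      (x := (u : LaurentSeries Kbar)) u.2
  refine ⟨K₀, hK₀, fun σ hσ => Subtype.ext ?_⟩
  rw [coe_galF, ← hy, coeffMap_coeffMap]
  exact coeffMap_congr (RingHom.ext fun c => hσ _ c.2) y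

/-- every class of the Kummer model is fixed by an open subgroup of `G_ℚ` -/
theorem exists_finite_level_W (N n : ℕ) (x : W N n) :
    ∃ L : IntermediateField ℚ Kbar, FiniteDimensional ℚ L ∧
      ∀ σ : GQ, (∀ y ∈ L, σ y = y) → rho N n σ x = x := by
  obtain ⟨u, rfl⟩ := cls_surjective x
  obtain ⟨L, hL, h⟩ := exists_finite_level N ((u : (FN N)ˣ) : FN N)
  refine ⟨L, hL, fun σ hσ => ?_⟩
  rw [rho_cls]
  exact congrArg cls (Subtype.ext (Units.ext (h σ hσ)))

/-- a finite family of open conditions is open -/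
theorem exists_finite_level_of_finite {ι : Type*} [Finite ι] (P : ι → GQ → Prop)
    (h : ∀ i, ∃ L : IntermediateField ℚ Kbar, FiniteDimensional ℚ L ∧
      ∀ σ : GQ, (∀ y ∈ L, σ y = y) → P i σ) :
    ∃ L : IntermediateField ℚ Kbar, FiniteDimensional ℚ L ∧
      ∀ σ : GQ, (∀ y ∈ L, σ y = y) → ∀ i, P i σ := by
  choose L hL hP using h
  have := hL
  refine ⟨⨆ i, L i, IntermediateField.finiteDimensional_iSup_of_finite, fun σ hσ i => ?_⟩
  exact hP i σ fun y hy => hσ y ((le_iSup L i) hy)

/-- if the Kummer model is finite, `rho` is trivial on an open subgroup -/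
theorem exists_finite_level_rho (N n : ℕ) [Finite (W N n)] :
    ∃ L : IntermediateField ℚ Kbar, FiniteDimensional ℚ L ∧
      ∀ σ : GQ, (∀ y ∈ L, σ y = y) → rho N n σ = 1 := by
  obtain ⟨L, hL, h⟩ := exists_finite_level_of_finite (fun (x : W N n) σ => rho N n σ x = x)
    (exists_finite_level_W N n)
  exact ⟨L, hL, fun σ hσ => AddMonoidHom.ext fun x => h σ hσ x⟩

end Fermat.Agent.GAL.E

end
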