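/-
Cluster GAL, block E.  TASK GAL-E8: action of inertia and Frobenius elements on reductions of
`A`-integral Laurent series.
-/
import Fermat.Agent.GAL.E.Defs
import Fermat.Prelude.Def_EllipticCurve_FrobeniusTrace

set_option autoImplicit false

noncomputable section

namespace Fermat.Agent.GAL.E

open ModularCurve AlgebraicCurve Fermat.Agent.S24

/-- the ring endomorphism of `A` induced by an element of the decomposition group -/
def decompHom (A : ValuationSubring Kbar) (g : A.decompositionSubgroup ℚ) : A →+* A :=
  MulSemiringAction.toRingHom (A.decompositionSubgroup ℚ) A g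

theorem coe_decompHom (A : ValuationSubring Kbar) (g : A.decompositionSubgroup ℚ) (a : A) :
    ((decompHom A g a : A) : Kbar) = (g : GQ) (a : Kbar) := rfl

theorem residue_decompHom (A : ValuationSubring Kbar) (g : A.decompositionSubgroup ℚ) (a : A) :
    IsLocalRing.residue A (decompHom A g a) = g • IsLocalRing.residue A a := rfl

theorem incl_decompHom (A : ValuationSubring Kbar) (g : A.decompositionSubgroup ℚ)
    (x : LaurentSeries A) :
    incl A (coeffMap (decompHom A g) x) = coeffMap ((g : GQ) : Kbar →+* Kbar) (incl A x) := by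
  ext k
  simp only [coeffMap_coeff]
  rfl

theorem coeff_red_decompHom (A : ValuationSubring Kbar) (g : A.decompositionSubgroup ℚ)
    (x : LaurentSeries A) (k : ℤ) :
    (red A (coeffMap (decompHom A g) x)).coeff k = g • IsLocalRing.residue A (x.coeff k) := by
  simp only [coeffMap_coeff]
  rfl

/-- an element of the inertia group does not change the reduction -/
theorem exists_gal_of_inertia (A : ValuationSubring Kbar) (σ : GQ)
    (hσ : σ ∈ A.inertiaSubgroupIn ℚ) (x : LaurentSeries A) :
    ∃ x' : LaurentSeries A, incl A x' = coeffMap (σ : Kbar →+* Kbar) (incl A x) ∧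
      red A x' = red A x := by
  obtain ⟨g, hg, rfl⟩ := hσ
  refine ⟨coeffMap (decompHom A g) x, incl_decompHom A g x, ?_⟩
  ext k
  rw [coeff_red_decompHom, coeffMap_coeff]
  have h : MulSemiringAction.toRingAut (A.decompositionSubgroup ℚ)
      (IsLocalRing.ResidueField A) g = 1 := hg
  exact congrArg (fun f : RingAut (IsLocalRing.ResidueField A) =>
    f (IsLocalRing.residue A (x.coeff k))) h

/-- a Frobenius element acts on reductions as the Frobenius of the coefficients -/
theorem exists_gal_of_frobenius (A : ValuationSubring Kbar) (ℓ : ℕ) [Fact ℓ.Prime]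
    [CharP (IsLocalRing.ResidueField A) ℓ] (σ : GQ) (hσ : A.IsFrobeniusAt σ ℓ)
    (x : LaurentSeries A) :
    ∃ x' : LaurentSeries A, incl A x' = coeffMap (σ : Kbar →+* Kbar) (incl A x) ∧
      red A x' = coeffMap (frobenius (IsLocalRing.ResidueField A) ℓ) (red A x) := by
  obtain ⟨hd, hf⟩ := hσ
  refine ⟨coeffMap (decompHom A ⟨σ, hd⟩) x, incl_decompHom A ⟨σ, hd⟩ x, ?_⟩
  ext k
  rw [coeff_red_decompHom, coeffMap_coeff, coeffMap_coeff, hf, frobenius_def]

end Fermat.Agent.GAL.E

end
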