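/-
Cluster GAL, block E (owner helper203).  INTERFACE with the multiplicative Hecke operator
(`Lib/MulHecke`, helper33): everything the Kummer module needs to know about `T_ℓ`.

`HeckeOp N ℓ` is a subsingleton (the `q`-expansion formula determines `T`), so it does not matter
how the operator is constructed (norm along `α` of `β u`, or formal operator `Tm`).
-/
import Fermat.Agent.GAL.E.Defs
import Fermat.Agent.S24.B.Laurent
import Fermat.Agent.S24.B.Zeta

set_option autoImplicit false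

noncomputable section

namespace Fermat.Agent.GAL.E

open ModularCurve AlgebraicCurve Fermat.Agent.S24 Fermat.Agent.S24.B

/-- A multiplicative Hecke operator `u(q) ↦ u(q^ℓ) ∏_b u(ζ^b q^(1/ℓ))` on `FN N`. -/
structure HeckeOp (N ℓ : ℕ) [NeZero ℓ] where
  /-- the operator -/
  T : FN N →* FN N
  /-- `(T u)(q^ℓ) = u(q^(ℓ²)) ∏_b u(ζ^b q)` -/
  qExpand_T : ∀ u : FN N, qExpand Kbar ℓ ((T u : FN N) : LaurentSeries Kbar) =
      qExpand Kbar (ℓ * ℓ) (u : LaurentSeries Kbar) *
        ∏ b ∈ Finset.range ℓ, twist (zetaK ℓ ^ b) (u : LaurentSeries Kbar)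
  /-- `T` preserves the elements whose divisor is divisible by `n` -/
  isKum : ∀ (n : ℕ) (u : FN N), IsKum N n u → IsKum N n (T u)

namespace HeckeOp

variable {N ℓ : ℕ} [NeZero ℓ] (H : HeckeOp N ℓ)

/-- The operator on units. -/
def TU : (FN N)ˣ →* (FN N)ˣ := Units.map H.T

theorem coe_TU (u : (FN N)ˣ) : ((H.TU u : (FN N)ˣ) : FN N) = H.T u := rfl

theorem TU_mem_kum {n : ℕ} (u : (FN N)ˣ) (hu : u ∈ kum N n) : H.TU u ∈ kum N n :=
  H.isKum n u hu

/-- The Hecke operator on the Kummer model. -/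
def TW (n : ℕ) : AddMonoid.End (W N n) := mapW H.TU fun u hu => H.TU_mem_kum u hu

theorem TW_cls {n : ℕ} (u : kum N n) :
    H.TW n (cls u) = cls (⟨H.TU (u : (FN N)ˣ), H.TU_mem_kum (u : (FN N)ˣ) u.2⟩ : kum N n) :=
  mapW_cls H.TU (fun u hu => H.TU_mem_kum u hu) u

end HeckeOp

end Fermat.Agent.GAL.E

end
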