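/-
Cluster GAL, block E.  TASK GAL-E1: formal consequences of the `q`-expansion formula of `T_ℓ`:
uniqueness, constants, commutation with the Galois action.
-/
import Fermat.Agent.GAL.E.HeckeOp

set_option autoImplicit false

noncomputable section

namespace Fermat.Agent.GAL.E

open ModularCurve AlgebraicCurve Fermat.Agent.S24 Fermat.Agent.S24.B

variable {N ℓ : ℕ} [NeZero ℓ]

/-- `f(q) ↦ f(q^m)` is injective -/
theorem qExpand_injective' {R : Type*} [CommRing R] (m : ℕ) [NeZero m] :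
    Function.Injective (qExpand R m) :=
  ModularCurve.qExpand_injective m

/-- the operator is determined by its `q`-expansion formula -/
theorem HeckeOp.T_eq (H H' : HeckeOp N ℓ) : H.T = H'.T := by
  refine MonoidHom.ext fun u => Subtype.ext (qExpand_injective' ℓ ?_)
  rw [H.qExpand_T, H'.qExpand_T]

/-- the coercion of a constant -/
theorem HeckeBasic.coe_algebraMap (c : Kbar) :
    ((algebraMap Kbar (FN N) c : FN N) : LaurentSeries Kbar) = HahnSeries.C c := by
  show algebraMap Kbar (LaurentSeries Kbar) c = HahnSeries.C c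
  rw [algebraMap_laurentSeries_eq_single]
  rfl

theorem HeckeOp.T_algebraMap (H : HeckeOp N ℓ) (c : Kbar) :
    H.T (algebraMap Kbar (FN N) c) = algebraMap Kbar (FN N) (c ^ (ℓ + 1)) := by
  refine Subtype.ext (qExpand_injective' ℓ ?_)
  rw [H.qExpand_T, HeckeBasic.coe_algebraMap, HeckeBasic.coe_algebraMap, qExpand_C, qExpand_C]
  simp only [twist_C, Finset.prod_const, Finset.card_range]
  rw [← map_pow, ← map_mul, pow_succ, mul_comm]

/-- coefficientwise maps commute with `q ↦ q^m` -/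
theorem HeckeBasic.coeffMap_qExpand {R S : Type*} [CommRing R] [CommRing S] (f : R →+* S) (m : ℕ)
    [NeZero m] (x : LaurentSeries R) :
    coeffMap f (qExpand R m x) = qExpand S m (coeffMap f x) := by
  ext k
  rw [coeffMap_coeff]
  by_cases hk : (m : ℤ) ∣ k
  · obtain ⟨j, rfl⟩ := hk
    rw [qExpand_coeff_mul, qExpand_coeff_mul, coeffMap_coeff]
  · rw [qExpand_coeff_of_not_dvd m _ hk, qExpand_coeff_of_not_dvd m _ hk, map_zero]

/-- coefficientwise maps and twists -/
theorem HeckeBasic.coeffMap_twist (σ : Kbar →+* Kbar) (z : Kbarˣ) (f : LaurentSeries Kbar) :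
    coeffMap σ (twist z f) = twist (Units.map (σ : Kbar →* Kbar) z) (coeffMap σ f) := by
  ext k
  rw [coeffMap_coeff, twist_coeff, twist_coeff, coeffMap_coeff, map_mul, ← map_zpow,
    Units.coe_map]
  rfl

/-- a product over the powers of a primitive root does not depend on the primitive root -/
theorem HeckeBasic.prod_pow_eq {β : Type*} [CommMonoid β] {ζ ξ : Kbarˣ}
    (hζ : IsPrimitiveRoot ζ ℓ) (hξ : IsPrimitiveRoot ξ ℓ) (F : Kbarˣ → β) :
    ∏ b ∈ Finset.range ℓ, F (ξ ^ b) = ∏ b ∈ Finset.range ℓ, F (ζ ^ b) := by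
  classical
  have inj : ∀ {η : Kbarˣ}, IsPrimitiveRoot η ℓ →
      Set.InjOn (fun b : ℕ => η ^ b) (Finset.range ℓ : Set ℕ) := by
    intro η h b hb c hc hbc
    exact h.pow_inj (Finset.mem_range.1 hb) (Finset.mem_range.1 hc) hbc
  rw [← Finset.prod_image (g := fun b : ℕ => ξ ^ b) (f := F) (inj hξ),
    ← Finset.prod_image (g := fun b : ℕ => ζ ^ b) (f := F) (inj hζ)]
  congr 1
  apply Finset.eq_of_subset_of_card_le
  · intro z hz
    obtain ⟨b, -, rfl⟩ := Finset.mem_image.1 hz
    have hζ' : IsPrimitiveRoot (ζ : Kbar) ℓ := IsPrimitiveRoot.coe_units_iff.2 hζ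
    have h1 : ((ξ ^ b : Kbarˣ) : Kbar) ^ ℓ = 1 := by
      rw [← Units.val_pow_eq_pow_val, ← pow_mul, mul_comm, pow_mul, hξ.pow_eq_one, one_pow,
        Units.val_one]
    obtain ⟨i, hi, h⟩ := hζ'.eq_pow_of_pow_eq_one h1
    refine Finset.mem_image.2 ⟨i, Finset.mem_range.2 hi, Units.ext ?_⟩
    rw [Units.val_pow_eq_pow_val, h]
  · rw [Finset.card_image_of_injOn (inj hξ), Finset.card_image_of_injOn (inj hζ)]

/-- `σ` permutes the `ℓ`-th roots of unity, so it commutes with `T_ℓ` -/
theorem HeckeOp.galF_T (H : HeckeOp N ℓ) (σ : GQ) (u : FN N) :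
    galF N σ (H.T u) = H.T (galF N σ u) := by
  refine Subtype.ext (qExpand_injective' ℓ ?_)
  rw [H.qExpand_T, coe_galF, coe_galF, ← HeckeBasic.coeffMap_qExpand, H.qExpand_T, map_mul,
    HeckeBasic.coeffMap_qExpand, map_prod]
  congr 1
  simp only [HeckeBasic.coeffMap_twist, map_pow]
  have hξ : IsPrimitiveRoot (Units.map ((σ : Kbar →+* Kbar) : Kbar →* Kbar) (zetaK ℓ)) ℓ := by
    rw [← IsPrimitiveRoot.coe_units_iff, Units.coe_map]
    exact (IsPrimitiveRoot.coe_units_iff.2 (isPrimitiveRoot_zetaK ℓ)).map_of_injective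
      (f := (σ : Kbar →+* Kbar)) σ.injective
  exact HeckeBasic.prod_pow_eq (isPrimitiveRoot_zetaK ℓ) hξ
    (fun z => twist z (coeffMap (σ : Kbar →+* Kbar) (u : LaurentSeries Kbar)))

end Fermat.Agent.GAL.E

end
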