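/-
Cluster GAL, block E.  TASK GAL-E2: `T_ℓ` and `T_ℓ'` commute (formal, from the `q`-expansion
formulas).
-/
import Fermat.Agent.GAL.E.HeckeBasic

set_option autoImplicit false

noncomputable section

namespace Fermat.Agent.GAL.E

open ModularCurve AlgebraicCurve Fermat.Agent.S24 Fermat.Agent.S24.B

namespace HeckeComm

variable {C : Type*} [Field C]

/-- the index of `qExpand` may be replaced by an equal one. -/
theorem qExpand_congr {a b : ℕ} [NeZero a] [NeZero b] (h : a = b) (f : LaurentSeries C) :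
    qExpand C a f = qExpand C b f := by
  subst h
  rfl

/-- `f(q) ↦ f(q^b) ↦ f(q^(ab))`. -/
theorem qExpand_qExpand (a b : ℕ) [NeZero a] [NeZero b] (f : LaurentSeries C) :
    qExpand C a (qExpand C b f) = qExpand C (a * b) f := by
  ext k
  by_cases ha : (a : ℤ) ∣ k
  · obtain ⟨j, rfl⟩ := ha
    rw [qExpand_coeff_mul]
    by_cases hb : (b : ℤ) ∣ j
    · obtain ⟨i, rfl⟩ := hb
      rw [qExpand_coeff_mul]
      have h1 : (a : ℤ) * ((b : ℤ) * i) = ((a * b : ℕ) : ℤ) * i := by push_cast; ring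
      rw [h1, qExpand_coeff_mul]
    · rw [qExpand_coeff_of_not_dvd b f hb, qExpand_coeff_of_not_dvd (a * b) f]
      rintro ⟨i, hi⟩
      apply hb
      refine ⟨i, ?_⟩
      have ha0 : (a : ℤ) ≠ 0 := by exact_mod_cast NeZero.ne a
      apply mul_left_cancel₀ ha0
      rw [hi]
      push_cast
      ring
  · rw [qExpand_coeff_of_not_dvd a _ ha, qExpand_coeff_of_not_dvd (a * b) f]
    rintro ⟨i, hi⟩
    apply ha
    refine ⟨(b : ℤ) * i, ?_⟩
    rw [hi]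
    push_cast
    ring

theorem qExpand_comm (a b : ℕ) [NeZero a] [NeZero b] (f : LaurentSeries C) :
    qExpand C a (qExpand C b f) = qExpand C b (qExpand C a f) := by
  rw [qExpand_qExpand, qExpand_qExpand]
  exact qExpand_congr (Nat.mul_comm a b) f

/-- `(f(q^m))(x q) = (f(x^m q))(q^m)`. -/
theorem twist_qExpand (x : Cˣ) (m : ℕ) [NeZero m] (f : LaurentSeries C) :
    twist x (qExpand C m f) = qExpand C m (twist (x ^ m) f) := by
  ext k
  rw [twist_coeff]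
  by_cases hm : (m : ℤ) ∣ k
  · obtain ⟨j, rfl⟩ := hm
    rw [qExpand_coeff_mul, qExpand_coeff_mul, twist_coeff, zpow_mul, zpow_natCast]
  · rw [qExpand_coeff_of_not_dvd m _ hm, qExpand_coeff_of_not_dvd m _ hm, mul_zero]

/-- a function of `b mod ℓ` has the same product over `b` and over `b m`, `m` prime to `ℓ`. -/
theorem prod_range_mul_mod {M : Type*} [CommMonoid M] {ℓ m : ℕ} (hc : Nat.Coprime m ℓ)
    (g : ℕ → M) :
    ∏ b ∈ Finset.range ℓ, g ((b * m) % ℓ) = ∏ b ∈ Finset.range ℓ, g b := by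
  rcases Nat.eq_zero_or_pos ℓ with rfl | hℓ
  · simp
  have hmaps : ∀ b ∈ Finset.range ℓ, (b * m) % ℓ ∈ Finset.range ℓ := fun b _ =>
    Finset.mem_range.2 (Nat.mod_lt _ hℓ)
  have hinj : Set.InjOn (fun b => (b * m) % ℓ) (Finset.range ℓ : Set ℕ) := by
    intro b hb b' hb' h
    have hb1 : b < ℓ := Finset.mem_range.1 (Finset.mem_coe.1 hb)
    have hb2 : b' < ℓ := Finset.mem_range.1 (Finset.mem_coe.1 hb')
    have h1 : b * m ≡ b' * m [MOD ℓ] := h
    have h2 : b ≡ b' [MOD ℓ] := Nat.ModEq.cancel_right_of_coprime (by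
      rw [Nat.gcd_comm]; exact hc) h1
    exact Nat.ModEq.eq_of_lt_of_lt h2 hb1 hb2
  have hsurj : Set.SurjOn (fun b => (b * m) % ℓ) (Finset.range ℓ : Set ℕ)
      (Finset.range ℓ : Set ℕ) :=
    Finset.surjOn_of_injOn_of_card_le _ hmaps hinj le_rfl
  exact Finset.prod_nbij (fun b => (b * m) % ℓ) hmaps hinj hsurj (fun _ _ => rfl)

/-- reindexing: `qExpand m` commutes with the product over the `ℓ`-th roots of unity. -/
theorem prod_twist_qExpand {ℓ m : ℕ} [NeZero m] (hc : Nat.Coprime m ℓ) (z : Cˣ)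
    (hz : z ^ ℓ = 1) (f : LaurentSeries C) :
    ∏ b ∈ Finset.range ℓ, twist (z ^ b) (qExpand C m f) =
      ∏ b ∈ Finset.range ℓ, qExpand C m (twist (z ^ b) f) := by
  rw [← prod_range_mul_mod hc (fun b => qExpand C m (twist (z ^ b) f))]
  refine Finset.prod_congr rfl fun b _ => ?_
  rw [twist_qExpand, ← pow_mul, pow_mod_of_pow_eq_one z hz]
where
  pow_mod_of_pow_eq_one (z : Cˣ) (hz : z ^ ℓ = 1) {k : ℕ} : z ^ (k % ℓ) = z ^ k := by
    conv_rhs => rw [← Nat.div_add_mod k ℓ, pow_add, pow_mul, hz, one_pow, one_mul]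

/-- The common value of `(T_ℓ T_ℓ' u)(q^(ℓ ℓ'))`. -/
theorem key {ℓ ℓ' : ℕ} [NeZero ℓ] [NeZero ℓ'] (hc : Nat.Coprime ℓ ℓ') (z z' : Cˣ)
    (hz : z ^ ℓ = 1) (u v w : LaurentSeries C)
    (hv : qExpand C ℓ' v = qExpand C (ℓ' * ℓ') u * ∏ b ∈ Finset.range ℓ', twist (z' ^ b) u)
    (hw : qExpand C ℓ w = qExpand C (ℓ * ℓ) v * ∏ b ∈ Finset.range ℓ, twist (z ^ b) v) :
    qExpand C ℓ' (qExpand C ℓ w) =
      qExpand C (ℓ * ℓ) (qExpand C (ℓ' * ℓ') u) *
        (∏ b' ∈ Finset.range ℓ', qExpand C (ℓ * ℓ) (twist (z' ^ b') u)) *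
        ((∏ b ∈ Finset.range ℓ, twist (z ^ b) (qExpand C (ℓ' * ℓ') u)) *
          ∏ b ∈ Finset.range ℓ, ∏ b' ∈ Finset.range ℓ', twist (z ^ b * z' ^ b') u) := by
  rw [hw, map_mul, qExpand_comm ℓ' (ℓ * ℓ) v, hv, map_mul, map_prod, map_prod]
  congr 1
  rw [← prod_twist_qExpand hc.symm z hz v, ← Finset.prod_mul_distrib]
  refine Finset.prod_congr rfl fun b _ => ?_
  rw [hv, map_mul, map_prod]
  congr 1
  exact Finset.prod_congr rfl fun b' _ => twist_twist _ _ _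

end HeckeComm

open HeckeComm in
theorem HeckeOp.T_comm {N ℓ ℓ' : ℕ} [NeZero ℓ] [NeZero ℓ'] (hc : Nat.Coprime ℓ ℓ')
    (H : HeckeOp N ℓ) (H' : HeckeOp N ℓ') (u : FN N) : H.T (H'.T u) = H'.T (H.T u) := by
  apply Subtype.ext
  apply qExpand_injective' (R := Kbar) ℓ
  apply qExpand_injective' (R := Kbar) ℓ'
  have hz : zetaK ℓ ^ ℓ = 1 := (isPrimitiveRoot_zetaK ℓ).pow_eq_one
  have hz' : zetaK ℓ' ^ ℓ' = 1 := (isPrimitiveRoot_zetaK ℓ').pow_eq_one
  have h1 := key hc (zetaK ℓ) (zetaK ℓ') hz (u : LaurentSeries Kbar) _ _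
    (H'.qExpand_T u) (H.qExpand_T (H'.T u))
  have h2 := key hc.symm (zetaK ℓ') (zetaK ℓ) hz' (u : LaurentSeries Kbar) _ _
    (H.qExpand_T u) (H'.qExpand_T (H.T u))
  rw [h1, qExpand_comm ℓ' ℓ, h2, qExpand_comm (ℓ * ℓ) (ℓ' * ℓ'),
    prod_twist_qExpand (Nat.Coprime.mul_left hc.symm hc.symm) (zetaK ℓ) hz,
    prod_twist_qExpand (Nat.Coprime.mul_left hc hc) (zetaK ℓ') hz', Finset.prod_comm]
  have h3 : ∀ b' ∈ Finset.range ℓ', ∀ b ∈ Finset.range ℓ,
      twist (zetaK ℓ ^ b * zetaK ℓ' ^ b') (u : LaurentSeries Kbar) =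
        twist (zetaK ℓ' ^ b' * zetaK ℓ ^ b) (u : LaurentSeries Kbar) := fun b' _ b _ => by
    rw [mul_comm]
  rw [Finset.prod_congr rfl fun b' hb' => Finset.prod_congr rfl (h3 b' hb')]
  ring

end Fermat.Agent.GAL.E

end
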