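/-
Cluster GAL, block E.  TASK GAL-E5: series with coefficients in `A`; elements of the `ℚ̄`-algebra
generated by the `j(q^d)` have coefficients in a number field, with bounded denominators.
Proofs: helper61.
-/
import Fermat.Agent.GAL.E.Defs
import Fermat.Agent.S24.Formal

set_option autoImplicit false

noncomputable section

namespace Fermat.Agent.GAL.E

open ModularCurve AlgebraicCurve Fermat.Agent.S24

/-- series with coefficients in `A` come from `A((q))` -/
theorem exists_incl_eq (A : ValuationSubring Kbar) (z : LaurentSeries Kbar)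
    (hz : ∀ k, z.coeff k ∈ A) : ∃ x : LaurentSeries A, incl A x = z := by
  refine ⟨⟨fun k => ⟨z.coeff k, hz k⟩, ?_⟩, ?_⟩
  · refine z.isPWO_support.mono ?_
    intro k hk
    rw [Function.mem_support] at hk
    rw [HahnSeries.mem_support]
    intro h0
    exact hk (Subtype.ext h0)
  · ext k
    rfl

theorem coeff_incl (A : ValuationSubring Kbar) (x : LaurentSeries A) (k : ℤ) :
    (incl A x).coeff k = (x.coeff k : Kbar) := rfl

theorem incl_injective (A : ValuationSubring Kbar) : Function.Injective (incl A) := by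
  intro x y h
  ext k
  have := congrArg (fun z => HahnSeries.coeff z k) h
  exact this

theorem coeff_red (A : ValuationSubring Kbar) (x : LaurentSeries A) (k : ℤ) :
    (red A x).coeff k = IsLocalRing.residue A (x.coeff k) := rfl

/-- the coefficients of `j` are integers -/
theorem exists_int_coeff_jq (m : ℤ) : ∃ n : ℤ, jq.coeff m = (n : ℚ) := by
  rw [jq, HahnSeries.coeff_single_mul, one_mul]
  rcases lt_or_ge (m - -1) 0 with h | h
  · exact ⟨0, by rw [ofPowerSeries_coeff_of_neg _ h, Int.cast_zero]⟩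
  · obtain ⟨i, hi⟩ := Int.eq_ofNat_of_zero_le h
    rw [hi, HahnSeries.ofPowerSeries_apply_coeff, jNumQ, PowerSeries.coeff_map]
    exact ⟨_, rfl⟩

/-- the coefficients of `j(q^d)` are integers -/
theorem exists_int_coeff_Jser (d : ℕ) [NeZero d] (k : ℤ) :
    ∃ n : ℤ, (Jser d).coeff k = (n : Kbar) := by
  rw [Jser, coeffEmb_coeff]
  by_cases hk : (d : ℤ) ∣ k
  · obtain ⟨m, rfl⟩ := hk
    rw [qExpand_coeff_mul]
    obtain ⟨n, hn⟩ := exists_int_coeff_jq m
    exact ⟨n, by rw [hn, map_intCast]⟩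
  · exact ⟨0, by rw [qExpand_coeff_of_not_dvd _ _ hk, map_zero, Int.cast_zero]⟩

theorem isIntegral_rat_Kbar (a : Kbar) : IsIntegral ℚ a := by
  have h : (DivisionRing.toRatAlgebra : Algebra ℚ (AlgebraicClosure ℚ)) =
      AlgebraicClosure.instAlgebra ℚ := Subsingleton.elim _ _
  have h2 : @IsIntegral ℚ Kbar _ _ (AlgebraicClosure.instAlgebra ℚ) a :=
    (AlgebraicClosure.isAlgebraic ℚ).isAlgebraic a |>.isIntegral
  convert h2

/-- auxiliary strengthened form: the scaling constant may be taken in `A`. -/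
theorem exists_bound_of_mem_adjoin_aux (A : ValuationSubring Kbar) (N : ℕ)
    (z : LaurentSeries Kbar) (hz : z ∈ Algebra.adjoin Kbar (Formal.genSer N)) :
    (∃ L : IntermediateField ℚ Kbar, FiniteDimensional ℚ L ∧ ∀ k, z.coeff k ∈ L) ∧
      ∃ c : Kbar, c ≠ 0 ∧ c ∈ A ∧ ∀ k, c * z.coeff k ∈ A := by
  induction hz using Algebra.adjoin_induction with
  | mem y hy =>
    obtain ⟨d, hne, -, rfl⟩ := hy
    refine ⟨⟨⊥, inferInstance, fun k => ?_⟩, 1, one_ne_zero, one_mem _, fun k => ?_⟩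
    · obtain ⟨n, hn⟩ := exists_int_coeff_Jser d k
      rw [hn]
      exact intCast_mem _ n
    · obtain ⟨n, hn⟩ := exists_int_coeff_Jser d k
      rw [hn, one_mul]
      exact intCast_mem _ n
  | algebraMap a =>
    have hcoeff : ∀ k, (algebraMap Kbar (LaurentSeries Kbar) a).coeff k = a ∨
        (algebraMap Kbar (LaurentSeries Kbar) a).coeff k = 0 := by
      intro k
      rw [algebraMap_laurentSeries_eq_single]
      by_cases hk : k = 0
      · left; rw [hk, HahnSeries.coeff_single_same]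
      · right; rw [HahnSeries.coeff_single_of_ne hk]
    refine ⟨⟨IntermediateField.adjoin ℚ {a},
      IntermediateField.adjoin.finiteDimensional (isIntegral_rat_Kbar a), fun k => ?_⟩, ?_⟩
    · rcases hcoeff k with h | h <;> rw [h]
      · exact IntermediateField.mem_adjoin_simple_self ℚ a
      · exact zero_mem _
    · rcases A.mem_or_inv_mem a with ha | ha
      · refine ⟨1, one_ne_zero, one_mem _, fun k => ?_⟩
        rcases hcoeff k with h | h <;> rw [h, one_mul]
        · exact ha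
        · exact zero_mem _
      · by_cases ha0 : a = 0
        · refine ⟨1, one_ne_zero, one_mem _, fun k => ?_⟩
          rcases hcoeff k with h | h <;> rw [h, one_mul]
          · rw [ha0]; exact zero_mem _
          · exact zero_mem _
        · refine ⟨a⁻¹, inv_ne_zero ha0, ha, fun k => ?_⟩
          rcases hcoeff k with h | h <;> rw [h]
          · rw [inv_mul_cancel₀ ha0]; exact one_mem _
          · rw [mul_zero]; exact zero_mem _
  | add x y _ _ hx hy =>
    obtain ⟨⟨L₁, hL₁, h₁⟩, c₁, hc₁, hc₁A, hA₁⟩ := hx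
    obtain ⟨⟨L₂, hL₂, h₂⟩, c₂, hc₂, hc₂A, hA₂⟩ := hy
    refine ⟨⟨L₁ ⊔ L₂, IntermediateField.finiteDimensional_sup L₁ L₂, fun k => ?_⟩,
      c₁ * c₂, mul_ne_zero hc₁ hc₂, mul_mem hc₁A hc₂A, fun k => ?_⟩
    · rw [HahnSeries.coeff_add]
      exact add_mem ((le_sup_left : L₁ ≤ L₁ ⊔ L₂) (h₁ k)) ((le_sup_right : L₂ ≤ L₁ ⊔ L₂) (h₂ k))
    · rw [HahnSeries.coeff_add]
      have : c₁ * c₂ * (x.coeff k + y.coeff k) =
          c₂ * (c₁ * x.coeff k) + c₁ * (c₂ * y.coeff k) := by ring
      rw [this]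
      exact add_mem (mul_mem hc₂A (hA₁ k)) (mul_mem hc₁A (hA₂ k))
  | mul x y _ _ hx hy =>
    obtain ⟨⟨L₁, hL₁, h₁⟩, c₁, hc₁, hc₁A, hA₁⟩ := hx
    obtain ⟨⟨L₂, hL₂, h₂⟩, c₂, hc₂, hc₂A, hA₂⟩ := hy
    refine ⟨⟨L₁ ⊔ L₂, IntermediateField.finiteDimensional_sup L₁ L₂, fun k => ?_⟩,
      c₁ * c₂, mul_ne_zero hc₁ hc₂, mul_mem hc₁A hc₂A, fun k => ?_⟩
    · rw [HahnSeries.coeff_mul]
      refine sum_mem fun ij _ => ?_
      exact mul_mem ((le_sup_left : L₁ ≤ L₁ ⊔ L₂) (h₁ _)) ((le_sup_right : L₂ ≤ L₁ ⊔ L₂) (h₂ _))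
    · rw [HahnSeries.coeff_mul, Finset.mul_sum]
      refine sum_mem fun ij _ => ?_
      have : c₁ * c₂ * (x.coeff ij.1 * y.coeff ij.2) =
          (c₁ * x.coeff ij.1) * (c₂ * y.coeff ij.2) := by ring
      rw [this]
      exact mul_mem (hA₁ _) (hA₂ _)

/-- elements of the `ℚ̄`-algebra generated by the `j(q^d)` have bounded coefficients in a number
field -/
theorem exists_bound_of_mem_adjoin (A : ValuationSubring Kbar) (N : ℕ) (z : LaurentSeries Kbar)
    (hz : z ∈ Algebra.adjoin Kbar (Formal.genSer N)) :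
    (∃ L : IntermediateField ℚ Kbar, FiniteDimensional ℚ L ∧ ∀ k, z.coeff k ∈ L) ∧
      ∃ c : Kbar, c ≠ 0 ∧ ∀ k, c * z.coeff k ∈ A := by
  obtain ⟨h1, c, hc, -, h2⟩ := exists_bound_of_mem_adjoin_aux A N z hz
  exact ⟨h1, c, hc, h2⟩

/-- every element of `FN N` is a quotient of two elements of the algebra generated by the
`j(q^d)` -/
theorem exists_div_of_mem (N : ℕ) (u : FN N) :
    ∃ a b : LaurentSeries Kbar, a ∈ Algebra.adjoin Kbar (Formal.genSer N) ∧
      b ∈ Algebra.adjoin Kbar (Formal.genSer N) ∧ b ≠ 0 ∧ (u : LaurentSeries Kbar) = a / b := by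
  have h1 : (u : LaurentSeries Kbar) ∈ IntermediateField.adjoin Kbar (Formal.genSer N) :=
    Formal.modularFunctionFieldBar_le_adjoin_genSer N u.2
  obtain ⟨r, hr, s, hs, hu⟩ := IntermediateField.mem_adjoin_iff_div.mp h1
  by_cases hs0 : s = 0
  · refine ⟨0, 1, zero_mem _, one_mem _, one_ne_zero, ?_⟩
    rw [hu, hs0, div_zero, zero_div]
  · exact ⟨r, s, hr, hs, hs0, hu⟩

theorem adjoin_le_FN (N : ℕ) (z : LaurentSeries Kbar)
    (hz : z ∈ Algebra.adjoin Kbar (Formal.genSer N)) : z ∈ modularFunctionFieldBar N := by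
  have h : Algebra.adjoin Kbar (Formal.genSer N) ≤ (modularFunctionFieldBar N).toSubalgebra := by
    refine Algebra.adjoin_le ?_
    rintro _ ⟨d, hne, hd, rfl⟩
    exact Jser_mem hd
  exact h hz

end Fermat.Agent.GAL.E

end
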