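/-
Cluster GAL, block E.  TASK GAL-E4 (proof: helper231): discreteness of a valuation subring of `ℚ̄`
over `ℓ` on number fields: a bounded family in a number field has an element of maximal size.
-/
import Fermat.Agent.GAL.E.Defs
import Fermat.Agent.S18.Descent.DVR

set_option autoImplicit false

noncomputable section

namespace Fermat.Agent.GAL.E

open Fermat.Agent.S24

theorem exists_max_of_bounded (A : ValuationSubring Kbar) (ℓ : ℕ) (hℓ : ℓ.Prime)
    (hA : A.LiesOverPrime ℓ) (L : IntermediateField ℚ Kbar) [FiniteDimensional ℚ L]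
    (S : Set Kbar) (hSL : ∀ s ∈ S, s ∈ L) (hne : ∃ s ∈ S, s ≠ 0)
    (c : Kbar) (hc : c ≠ 0) (hbd : ∀ s ∈ S, c * s ∈ A) :
    ∃ s₀ ∈ S, s₀ ≠ 0 ∧ ∀ s ∈ S, s / s₀ ∈ A := by
  classical
  have hcint : IsIntegral ℚ c := by
    have h : (DivisionRing.toRatAlgebra : Algebra ℚ (AlgebraicClosure ℚ)) =
        AlgebraicClosure.instAlgebra ℚ := Subsingleton.elim _ _
    have h1 : @IsIntegral ℚ (AlgebraicClosure ℚ) _ _ (AlgebraicClosure.instAlgebra ℚ) c :=
      ((AlgebraicClosure.isAlgebraic ℚ).isAlgebraic c).isIntegral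
    rw [← h] at h1
    exact h1
  have : FiniteDimensional ℚ (IntermediateField.adjoin ℚ {c}) :=
    IntermediateField.adjoin.finiteDimensional hcint
  let L' : IntermediateField ℚ Kbar := L ⊔ IntermediateField.adjoin ℚ {c}
  have hfin : FiniteDimensional ℚ L' := IntermediateField.finiteDimensional_sup _ _
  have hcL : c ∈ L' :=
    (le_sup_right : IntermediateField.adjoin ℚ {c} ≤ L') (IntermediateField.mem_adjoin_simple_self ℚ c)
  have hSL' : ∀ s ∈ S, s ∈ L' := fun s hs => (le_sup_left : L ≤ L') (hSL s hs)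
  let A₀ := Fermat.Agent.S18.Descent.restrict A L'
  have hdvr : IsDiscreteValuationRing A₀ :=
    Fermat.Agent.S18.Descent.isDiscreteValuationRing_restrict L' hℓ.ne_zero hA
  -- the element `c * s` of `A₀`
  let e : ∀ s : Kbar, s ∈ S → A₀ := fun s hs =>
    ⟨⟨c * s, L'.mul_mem hcL (hSL' s hs)⟩, hbd s hs⟩
  let T : Set ℕ∞ := {n | ∃ (s : Kbar) (hs : s ∈ S), s ≠ 0 ∧ IsDiscreteValuationRing.addVal A₀ (e s hs) = n}
  have hT : T.Nonempty := by
    obtain ⟨s, hs, hs0⟩ := hne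
    exact ⟨_, s, hs, hs0, rfl⟩
  obtain ⟨n, ⟨s₀, hs₀, hs₀0, rfl⟩, hmin⟩ := WellFounded.has_min (wellFounded_lt (α := ℕ∞)) T hT
  refine ⟨s₀, hs₀, hs₀0, fun s hs => ?_⟩
  rcases eq_or_ne s 0 with rfl | hs0
  · rw [zero_div]; exact A.zero_mem
  have hle : IsDiscreteValuationRing.addVal A₀ (e s₀ hs₀) ≤ IsDiscreteValuationRing.addVal A₀ (e s hs) :=
    not_lt.mp (hmin _ ⟨s, hs, hs0, rfl⟩)
  obtain ⟨t, ht⟩ := IsDiscreteValuationRing.addVal_le_iff_dvd.mp hle
  have ht' : c * s = c * s₀ * ((t : L') : Kbar) := by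
    have := congrArg (fun x : A₀ => ((x : L') : Kbar)) ht
    exact this
  have : s / s₀ = ((t : L') : Kbar) := by
    rw [div_eq_iff hs₀0]
    have h2 : c * s = c * (((t : L') : Kbar) * s₀) := by rw [ht']; ring
    exact mul_left_cancel₀ hc h2
  rw [this]
  exact t.2

end Fermat.Agent.GAL.E

end
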