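/-
Cluster GAL, block E.  TASK GAL-E6: Gauss normalisation of elements of `FN N`
(from `Discrete.lean` and `Bound.lean`).
-/
import Fermat.Agent.GAL.E.Discrete
import Fermat.Agent.GAL.E.Bound

set_option autoImplicit false

noncomputable section

namespace Fermat.Agent.GAL.E

open ModularCurve AlgebraicCurve Fermat.Agent.S24

theorem scaling_coeff_C_mul (a : Kbar) (z : LaurentSeries Kbar) (k : ℤ) :
    (HahnSeries.C a * z).coeff k = a * z.coeff k := by
  rw [HahnSeries.C_mul_eq_smul, HahnSeries.coeff_smul, smul_eq_mul]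

theorem scaling_algebraMap (a : Kbar) :
    algebraMap Kbar (LaurentSeries Kbar) a = HahnSeries.C a := by
  rw [HahnSeries.algebraMap_apply']
  simp

theorem scaling_C_mem (N : ℕ) (a : Kbar) :
    (HahnSeries.C a : LaurentSeries Kbar) ∈ modularFunctionFieldBar N := by
  have h := (modularFunctionFieldBar N).algebraMap_mem a
  rwa [scaling_algebraMap] at h

/-- a nonzero element of the algebra generated by the `j(q^d)` is a constant times an
`A`-integral series with nonzero reduction -/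
theorem exists_scaling_of_mem_adjoin (A : ValuationSubring Kbar) (ℓ : ℕ) (hℓ : ℓ.Prime)
    (hA : A.LiesOverPrime ℓ) (N : ℕ) (z : LaurentSeries Kbar)
    (hz : z ∈ Algebra.adjoin Kbar (Formal.genSer N)) (hz0 : z ≠ 0) :
    ∃ (c : Kbar) (x : LaurentSeries A), c ≠ 0 ∧ red A x ≠ 0 ∧
      z = HahnSeries.C c * incl A x := by
  obtain ⟨⟨L, hLfin, hL⟩, c₀, hc₀, hbd⟩ := exists_bound_of_mem_adjoin A N z hz
  have hne : ∃ s ∈ Set.range z.coeff, s ≠ 0 := by
    by_contra hcon
    push Not at hcon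
    apply hz0
    ext k
    exact hcon _ ⟨k, rfl⟩
  obtain ⟨s₀, ⟨k₀, hk₀⟩, hs₀, hmax⟩ := exists_max_of_bounded A ℓ hℓ hA L (Set.range z.coeff)
    (by rintro _ ⟨k, rfl⟩; exact hL k) hne c₀ hc₀ (by rintro _ ⟨k, rfl⟩; exact hbd k)
  obtain ⟨x, hx⟩ := exists_incl_eq A (HahnSeries.C s₀⁻¹ * z) (fun k => by
    rw [scaling_coeff_C_mul, mul_comm, ← div_eq_mul_inv]
    exact hmax _ ⟨k, rfl⟩)
  refine ⟨s₀, x, hs₀, ?_, ?_⟩
  · intro hred
    have h1 : (red A x).coeff k₀ = 0 := by rw [hred]; rfl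
    rw [coeff_red] at h1
    have h2 : ((x.coeff k₀ : A) : Kbar) = 1 := by
      rw [← coeff_incl, hx, scaling_coeff_C_mul, hk₀, inv_mul_cancel₀ hs₀]
    have h3 : x.coeff k₀ = 1 := Subtype.ext h2
    rw [h3, map_one] at h1
    exact one_ne_zero h1
  · rw [hx, ← mul_assoc, ← map_mul, mul_inv_cancel₀ hs₀, map_one, one_mul]

theorem exists_scaling (A : ValuationSubring Kbar) (ℓ : ℕ) (hℓ : ℓ.Prime)
    (hA : A.LiesOverPrime ℓ) (N : ℕ) (u : FN N) (hu : u ≠ 0) :
    ∃ (c : Kbar) (x y : LaurentSeries A) (hx : incl A x ∈ modularFunctionFieldBar N)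
      (hy : incl A y ∈ modularFunctionFieldBar N), c ≠ 0 ∧ red A x ≠ 0 ∧ red A y ≠ 0 ∧
      u = algebraMap Kbar (FN N) c * ((⟨incl A x, hx⟩ : FN N) / ⟨incl A y, hy⟩) := by
  obtain ⟨a, b, ha, hb, hb0, hab⟩ := exists_div_of_mem N u
  have ha0 : a ≠ 0 := by
    rintro rfl
    apply hu
    apply Subtype.ext
    rw [hab, zero_div]
    rfl
  obtain ⟨ca, x, hca, hrx, hax⟩ := exists_scaling_of_mem_adjoin A ℓ hℓ hA N a ha ha0
  obtain ⟨cb, y, hcb, hry, hby⟩ := exists_scaling_of_mem_adjoin A ℓ hℓ hA N b hb hb0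
  have hx : incl A x ∈ modularFunctionFieldBar N := by
    have : incl A x = HahnSeries.C ca⁻¹ * a := by
      rw [hax, ← mul_assoc, ← map_mul, inv_mul_cancel₀ hca, map_one, one_mul]
    rw [this]
    exact mul_mem (scaling_C_mem N _) (adjoin_le_FN N a ha)
  have hy : incl A y ∈ modularFunctionFieldBar N := by
    have : incl A y = HahnSeries.C cb⁻¹ * b := by
      rw [hby, ← mul_assoc, ← map_mul, inv_mul_cancel₀ hcb, map_one, one_mul]
    rw [this]
    exact mul_mem (scaling_C_mem N _) (adjoin_le_FN N b hb)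
  refine ⟨ca / cb, x, y, hx, hy, div_ne_zero hca hcb, hrx, hry, ?_⟩
  apply Subtype.ext
  have hC : ((algebraMap Kbar (FN N) (ca / cb) : FN N) : LaurentSeries Kbar)
      = HahnSeries.C (ca / cb) := by
    exact scaling_algebraMap _
  have hCb : (HahnSeries.C cb : LaurentSeries Kbar) ≠ 0 := by
    intro h
    apply hcb
    have := congrArg (fun s : LaurentSeries Kbar => s.coeff 0) h
    simpa using this
  have hy0 : incl A y ≠ 0 := by
    intro h
    apply hb0
    rw [hby, h, mul_zero]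
  show (u : LaurentSeries Kbar) = ((algebraMap Kbar (FN N) (ca / cb) : FN N) : LaurentSeries Kbar)
    * (incl A x / incl A y)
  rw [hC, hab, hax, hby, map_div₀]
  field_simp

end Fermat.Agent.GAL.E

end
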