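/-
Cluster GAL, block E (owner helper203).  The deliverables of block E: on the Kummer model `W N n`
* `rho` commutes with the Hecke operators, the Hecke operators commute;
* from `KL N A n`: inertia at `A` acts trivially, and the Eichler-Shimura relation holds for every
  Frobenius element at `A`.
-/
import Fermat.Agent.GAL.E.HeckeComm
import Fermat.Agent.GAL.E.FiniteLevel
import Fermat.Agent.GAL.E.Scaling
import Fermat.Agent.GAL.E.GalRed
import Fermat.Agent.GAL.E.HeckeRed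

set_option autoImplicit false

noncomputable section

namespace Fermat.Agent.GAL.E

open ModularCurve AlgebraicCurve Fermat.Agent.S24 Fermat.Agent.S24.B

theorem HeckeOp.commute_rho_TW {N ℓ : ℕ} [NeZero ℓ] (H : HeckeOp N ℓ) (n : ℕ) (σ : GQ) :
    Commute (rho N n σ) (H.TW n) := by
  refine AddMonoidHom.ext fun x => ?_
  obtain ⟨u, rfl⟩ := cls_surjective x
  show rho N n σ (H.TW n (cls u)) = H.TW n (rho N n σ (cls u))
  rw [H.TW_cls, rho_cls, rho_cls, H.TW_cls]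
  refine congrArg cls (Subtype.ext (Units.ext ?_))
  exact H.galF_T σ _

theorem HeckeOp.commute_TW_TW {N ℓ ℓ' : ℕ} [NeZero ℓ] [NeZero ℓ'] (hc : Nat.Coprime ℓ ℓ')
    (H : HeckeOp N ℓ) (H' : HeckeOp N ℓ') (n : ℕ) : Commute (H.TW n) (H'.TW n) := by
  refine AddMonoidHom.ext fun x => ?_
  obtain ⟨u, rfl⟩ := cls_surjective x
  show H.TW n (H'.TW n (cls u)) = H'.TW n (H.TW n (cls u))
  rw [H'.TW_cls, H.TW_cls, H.TW_cls, H'.TW_cls]
  refine congrArg cls (Subtype.ext (Units.ext ?_))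
  exact H.T_comm hc H' _

/-- The way `KL` is used: a Kummer unit which is a constant times a quotient of two `A`-integral
elements with the same nonzero reduction is an `n`-th power. -/
theorem mem_pows_of_KL {N n : ℕ} (hn : 0 < n) {A : ValuationSubring Kbar} (hKL : KL N A n)
    (e : (FN N)ˣ) (he : e ∈ kum N n) (d : Kbar) (hd : d ≠ 0) (P Q : LaurentSeries A)
    (hP : incl A P ∈ modularFunctionFieldBar N) (hQ : incl A Q ∈ modularFunctionFieldBar N)
    (hPQ : red A P = red A Q) (hQ0 : red A Q ≠ 0)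
    (h : (e : FN N) = algebraMap Kbar (FN N) d * ((⟨incl A P, hP⟩ : FN N) / ⟨incl A Q, hQ⟩)) :
    e ∈ pows N n := by
  have hd' : algebraMap Kbar (FN N) d ≠ 0 := (map_ne_zero _).2 hd
  have hk : IsKum N n ((⟨incl A P, hP⟩ : FN N) / ⟨incl A Q, hQ⟩) := by
    have h2 : ((⟨incl A P, hP⟩ : FN N) / ⟨incl A Q, hQ⟩)
        = (e : FN N) * algebraMap Kbar (FN N) d⁻¹ := by
      rw [h, map_inv₀, mul_comm, ← mul_assoc, inv_mul_cancel₀ hd', one_mul]
    rw [h2]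
    exact IsKum.mul he (isKum_algebraMap N n _)
  obtain ⟨w, hw⟩ := hKL P Q hP hQ hPQ hQ0 hk
  obtain ⟨d0, hd0⟩ := IsAlgClosed.exists_pow_nat_eq d hn
  refine mem_pows_of_eq_pow (w := algebraMap Kbar (FN N) d0 * w) ?_
  rw [h, hw, mul_pow, ← map_pow, hd0]

theorem cls_eq_of_mul_inv_mem {N n : ℕ} (a b : kum N n)
    (h : ((a * b⁻¹ : kum N n) : (FN N)ˣ) ∈ pows N n) : cls a = cls b := by
  rw [← sub_eq_zero, sub_eq_add_neg, ← cls_inv, ← cls_mul, cls_eq_zero_iff]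
  exact h

theorem rho_eq_one_of_inertia (N n : ℕ) (hn : 0 < n) (A : ValuationSubring Kbar) (ℓ : ℕ)
    (hℓ : ℓ.Prime) (hA : A.LiesOverPrime ℓ) (hKL : KL N A n) (σ : GQ)
    (hσ : σ ∈ A.inertiaSubgroupIn ℚ) : rho N n σ = 1 := by
  refine AddMonoidHom.ext fun w => ?_
  obtain ⟨u, rfl⟩ := cls_surjective w
  show rho N n σ (cls u) = cls u
  rw [rho_cls]
  apply cls_eq_of_mul_inv_mem
  set u0 : FN N := ((u : (FN N)ˣ) : FN N) with hu0
  have hu0ne : u0 ≠ 0 := Units.ne_zero _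
  obtain ⟨c, x, y, hx, hy, hc, hx0, hy0, huxy⟩ := exists_scaling A ℓ hℓ hA N u0 hu0ne
  set X : FN N := ⟨incl A x, hx⟩ with hX
  set Y : FN N := ⟨incl A y, hy⟩ with hY
  have hXne : X ≠ 0 := by
    rintro h
    rw [h, zero_div, mul_zero] at huxy
    exact hu0ne huxy
  have hYne : Y ≠ 0 := by
    rintro h
    rw [h, div_zero, mul_zero] at huxy
    exact hu0ne huxy
  obtain ⟨x', hx'1, hx'2⟩ := exists_gal_of_inertia A σ hσ x
  obtain ⟨y', hy'1, hy'2⟩ := exists_gal_of_inertia A σ hσ y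
  have hσX : ((galF N σ X : FN N) : LaurentSeries Kbar) = incl A x' := by rw [coe_galF, hx'1]
  have hσY : ((galF N σ Y : FN N) : LaurentSeries Kbar) = incl A y' := by rw [coe_galF, hy'1]
  have hP : incl A (x' * y) ∈ modularFunctionFieldBar N := by
    rw [map_mul, ← hσX]
    exact (galF N σ X * Y).2
  have hQ : incl A (x * y') ∈ modularFunctionFieldBar N := by
    rw [map_mul, ← hσY]
    exact (X * galF N σ Y).2
  have hPe : (⟨incl A (x' * y), hP⟩ : FN N) = galF N σ X * Y :=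
    Subtype.ext (by
      show incl A (x' * y) = ((galF N σ X : FN N) : LaurentSeries Kbar) * (Y : LaurentSeries Kbar)
      rw [map_mul, ← hσX])
  have hQe : (⟨incl A (x * y'), hQ⟩ : FN N) = X * galF N σ Y :=
    Subtype.ext (by
      show incl A (x * y') = (X : LaurentSeries Kbar) * ((galF N σ Y : FN N) : LaurentSeries Kbar)
      rw [map_mul, ← hσY])
  have hσc : σ c ≠ 0 := (map_ne_zero _).2 hc
  refine mem_pows_of_KL hn hKL _ (Subtype.coe_prop _) (σ c / c) (div_ne_zero hσc hc) (x' * y)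
    (x * y') hP hQ ?_ ?_ ?_
  · rw [map_mul, map_mul, hx'2, hy'2]
  · rw [map_mul, hy'2]
    exact mul_ne_zero hx0 hy0
  · rw [hPe, hQe]
    have hσXne : galF N σ X ≠ 0 := (map_ne_zero_iff _ (galF N σ).injective).2 hXne
    have hσYne : galF N σ Y ≠ 0 := (map_ne_zero_iff _ (galF N σ).injective).2 hYne
    have hc' : algebraMap Kbar (FN N) c ≠ 0 := (map_ne_zero _).2 hc
    have h1 : galF N σ u0 = algebraMap Kbar (FN N) (σ c) * (galF N σ X / galF N σ Y) := by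
      rw [huxy, map_mul, map_div₀, galF_algebraMap]
    show galF N σ u0 * ((u⁻¹ : kum N n) : (FN N)ˣ) = _
    have h2 : ((((u⁻¹ : kum N n) : (FN N)ˣ)) : FN N) = u0⁻¹ := by
      rw [hu0]
      simp
    rw [h2, h1, map_div₀]
    conv_lhs => rw [huxy]
    field_simp

theorem HeckeOp.T_ne_zero {N ℓ : ℕ} [NeZero ℓ] (H : HeckeOp N ℓ) {b : FN N} (hb : b ≠ 0) :
    H.T b ≠ 0 := ((isUnit_iff_ne_zero.2 hb).map H.T).ne_zero

theorem HeckeOp.T_div {N ℓ : ℕ} [NeZero ℓ] (H : HeckeOp N ℓ) (a : FN N) {b : FN N} (hb : b ≠ 0) :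
    H.T (a / b) = H.T a / H.T b := by
  rw [eq_div_iff (H.T_ne_zero hb), ← map_mul, div_mul_cancel₀ _ hb]

theorem HeckeOp.eichler_shimura {N ℓ : ℕ} [NeZero ℓ] (H : HeckeOp N ℓ) (n : ℕ) (hn : 0 < n)
    (hℓ : ℓ.Prime) (A : ValuationSubring Kbar) (hA : A.LiesOverPrime ℓ) (hKL : KL N A n) (σ : GQ)
    (hσ : A.IsFrobeniusAt σ ℓ) (x : W N n) :
    rho N n σ (rho N n σ x) - H.TW n (rho N n σ x) + ℓ • x = 0 := by
  obtain ⟨u, rfl⟩ := cls_surjective x
  have : Fact ℓ.Prime := ⟨hℓ⟩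
  have : CharP (IsLocalRing.ResidueField A) ℓ := charP_residueField A ℓ hℓ hA
  rw [rho_cls, rho_cls, H.TW_cls, ← cls_pow]
  refine (congrArg (· + cls (u ^ ℓ)) (sub_eq_add_neg _ _)).trans ?_
  show _ + - _ + _ = _
  rw [← cls_inv, ← cls_mul, ← cls_mul, cls_eq_zero_iff]
  set u0 : FN N := ((u : (FN N)ˣ) : FN N) with hu0
  have hu0ne : u0 ≠ 0 := Units.ne_zero _
  obtain ⟨c, x, y, hx, hy, hc, hx0, hy0, huxy⟩ := exists_scaling A ℓ hℓ hA N u0 hu0ne
  set X : FN N := ⟨incl A x, hx⟩ with hX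
  set Y : FN N := ⟨incl A y, hy⟩ with hY
  have hXne : X ≠ 0 := by
    rintro h
    rw [h, zero_div, mul_zero] at huxy
    exact hu0ne huxy
  have hYne : Y ≠ 0 := by
    rintro h
    rw [h, div_zero, mul_zero] at huxy
    exact hu0ne huxy
  obtain ⟨x1, hx1a, hx1b⟩ := exists_gal_of_frobenius A ℓ σ hσ x
  obtain ⟨x2, hx2a, hx2b⟩ := exists_gal_of_frobenius A ℓ σ hσ x1
  obtain ⟨y1, hy1a, hy1b⟩ := exists_gal_of_frobenius A ℓ σ hσ y
  obtain ⟨y2, hy2a, hy2b⟩ := exists_gal_of_frobenius A ℓ σ hσ y1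
  set X1 : FN N := galF N σ X with hX1
  set Y1 : FN N := galF N σ Y with hY1
  set X2 : FN N := galF N σ X1 with hX2
  set Y2 : FN N := galF N σ Y1 with hY2
  have cX1 : (X1 : LaurentSeries Kbar) = incl A x1 := by rw [hX1, coe_galF, hx1a]
  have cY1 : (Y1 : LaurentSeries Kbar) = incl A y1 := by rw [hY1, coe_galF, hy1a]
  have cX2 : (X2 : LaurentSeries Kbar) = incl A x2 := by rw [hX2, coe_galF, hx2a, cX1]
  have cY2 : (Y2 : LaurentSeries Kbar) = incl A y2 := by rw [hY2, coe_galF, hy2a, cY1]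
  have mX1 : incl A x1 ∈ modularFunctionFieldBar N := cX1 ▸ X1.2
  have mY1 : incl A y1 ∈ modularFunctionFieldBar N := cY1 ▸ Y1.2
  have eX1 : (⟨incl A x1, mX1⟩ : FN N) = X1 := Subtype.ext cX1.symm
  have eY1 : (⟨incl A y1, mY1⟩ : FN N) = Y1 := Subtype.ext cY1.symm
  obtain ⟨tx, htx1, htx2⟩ := H.exists_T_red A hA x1 mX1
  obtain ⟨ty, hty1, hty2⟩ := H.exists_T_red A hA y1 mY1
  rw [eX1] at htx1
  rw [eY1] at hty1
  have cP : incl A (x2 * x ^ ℓ * ty) = ((X2 * X ^ ℓ * H.T Y1 : FN N) : LaurentSeries Kbar) := by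
    show _ = (X2 : LaurentSeries Kbar) * (X : LaurentSeries Kbar) ^ ℓ *
      ((H.T Y1 : FN N) : LaurentSeries Kbar)
    rw [map_mul, map_mul, map_pow, hty1, cX2]
  have cQ : incl A (y2 * y ^ ℓ * tx) = ((Y2 * Y ^ ℓ * H.T X1 : FN N) : LaurentSeries Kbar) := by
    show _ = (Y2 : LaurentSeries Kbar) * (Y : LaurentSeries Kbar) ^ ℓ *
      ((H.T X1 : FN N) : LaurentSeries Kbar)
    rw [map_mul, map_mul, map_pow, htx1, cY2]
  have hP : incl A (x2 * x ^ ℓ * ty) ∈ modularFunctionFieldBar N := cP ▸ Subtype.coe_prop _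
  have hQ : incl A (y2 * y ^ ℓ * tx) ∈ modularFunctionFieldBar N := cQ ▸ Subtype.coe_prop _
  have hPe : (⟨incl A (x2 * x ^ ℓ * ty), hP⟩ : FN N) = X2 * X ^ ℓ * H.T Y1 := Subtype.ext cP
  have hQe : (⟨incl A (y2 * y ^ ℓ * tx), hQ⟩ : FN N) = Y2 * Y ^ ℓ * H.T X1 := Subtype.ext cQ
  have hσc : σ c ≠ 0 := (map_ne_zero _).2 hc
  have hσσc : σ (σ c) ≠ 0 := (map_ne_zero _).2 hσc
  have hF : ∀ z : LaurentSeries (IsLocalRing.ResidueField A), z ≠ 0 →
      coeffMap (frobenius (IsLocalRing.ResidueField A) ℓ) z ≠ 0 := by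
    intro z hz h
    have h1 := pow_char_eq_qExpand ℓ z
    rw [h, map_zero] at h1
    exact hz (pow_eq_zero_iff hℓ.ne_zero |>.1 h1)
  refine mem_pows_of_KL hn hKL _ (Subtype.coe_prop _) (σ (σ c) * c ^ ℓ / σ c ^ (ℓ + 1))
    (div_ne_zero (mul_ne_zero hσσc (pow_ne_zero _ hc)) (pow_ne_zero _ hσc))
    (x2 * x ^ ℓ * ty) (y2 * y ^ ℓ * tx) hP hQ ?_ ?_ ?_
  · rw [map_mul, map_mul, map_mul, map_mul, map_pow, map_pow, hx2b, hy2b, htx2, hty2, hx1b, hy1b,
      pow_char_eq_qExpand ℓ (red A x), pow_char_eq_qExpand ℓ (red A y)]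
    ring
  · rw [map_mul, map_mul, map_pow, hy2b, htx2, hx1b, hy1b, ← pow_char_eq_qExpand ℓ (red A x)]
    exact mul_ne_zero (mul_ne_zero (hF _ (hF _ hy0)) (pow_ne_zero _ hy0))
      (mul_ne_zero (pow_ne_zero _ hx0) (hF _ (hF _ hx0)))
  · rw [hPe, hQe]
    have hX1ne : X1 ≠ 0 := (map_ne_zero_iff _ (galF N σ).injective).2 hXne
    have hY1ne : Y1 ≠ 0 := (map_ne_zero_iff _ (galF N σ).injective).2 hYne
    have hX2ne : X2 ≠ 0 := (map_ne_zero_iff _ (galF N σ).injective).2 hX1ne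
    have hY2ne : Y2 ≠ 0 := (map_ne_zero_iff _ (galF N σ).injective).2 hY1ne
    have hTX : H.T X1 ≠ 0 := H.T_ne_zero hX1ne
    have hTY : H.T Y1 ≠ 0 := H.T_ne_zero hY1ne
    have hc' : algebraMap Kbar (FN N) c ≠ 0 := (map_ne_zero _).2 hc
    have hσc' : algebraMap Kbar (FN N) (σ c) ≠ 0 := (map_ne_zero _).2 hσc
    have h1 : galF N σ u0 = algebraMap Kbar (FN N) (σ c) * (X1 / Y1) := by
      rw [huxy, map_mul, map_div₀, galF_algebraMap]
    have h2 : galF N σ (galF N σ u0) = algebraMap Kbar (FN N) (σ (σ c)) * (X2 / Y2) := by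
      rw [h1, map_mul, map_div₀, galF_algebraMap]
    have h3 : H.T (galF N σ u0) =
        algebraMap Kbar (FN N) (σ c) ^ (ℓ + 1) * (H.T X1 / H.T Y1) := by
      rw [h1, map_mul, H.T_div _ hY1ne, H.T_algebraMap, map_pow]
    rw [Subgroup.coe_mul, Subgroup.coe_mul, Subgroup.coe_inv, Subgroup.coe_pow, Units.val_mul,
      Units.val_mul, Units.val_inv_eq_inv_val, Units.val_pow_eq_pow_val]
    show galF N σ (galF N σ u0) * (H.T (galF N σ u0))⁻¹ * u0 ^ ℓ = _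
    rw [h2, h3, map_div₀, map_mul, map_pow, map_pow]
    conv_lhs => rw [huxy, mul_pow, div_pow]
    field_simp

end Fermat.Agent.GAL.E

end
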