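/-
Cluster GAL, block E (owner helper203).  The fields of `Fermat.Agent.GAL.Tower.KummerPackage`
delivered by block E, in the exact shapes of the contract (`GAL/Tower/Contract.lean`):
`W := W N n`, `ρ σ := rho N n σ`, `T ℓ hℓ hℓN := (H ℓ hℓ hℓN).TW n`.
-/
import Fermat.Agent.GAL.E.Main
import Fermat.Agent.S30.Defs

set_option autoImplicit false

noncomputable section

namespace Fermat.Agent.GAL.E

open ModularCurve AlgebraicCurve Fermat.Agent.S24 Fermat.Agent.S24.B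

theorem pkg_rho_one (N n : ℕ) (w : W N n) : rho N n 1 w = w := by
  rw [map_one]
  rfl

theorem pkg_rho_mul (N n : ℕ) (σ τ : GQ) (w : W N n) :
    rho N n (σ * τ) w = rho N n σ (rho N n τ w) := by
  rw [map_mul]
  rfl

theorem pkg_T_rho {N ℓ : ℕ} [NeZero ℓ] (H : HeckeOp N ℓ) (n : ℕ) (σ : GQ) (w : W N n) :
    H.TW n (rho N n σ w) = rho N n σ (H.TW n w) :=
  (congrArg (fun f : AddMonoid.End (W N n) => f w) (H.commute_rho_TW n σ).eq).symm

theorem pkg_openStab (N n : ℕ) (w : W N n) :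
    ∃ L : IntermediateField ℚ (AlgebraicClosure ℚ), FiniteDimensional ℚ L ∧
      ∀ σ : GQ, (∀ x ∈ L, σ x = x) → rho N n σ w = w :=
  exists_finite_level_W N n w

theorem pkg_unramified (hKL : KLStatement) (N n : ℕ) [NeZero N] (q : ℕ) (hq : q.Prime)
    (hqN : ¬ q ∣ N) (hqn : ¬ q ∣ n) (σ : GQ) (hσ : Fermat.Agent.S30.IsInertia σ q) (w : W N n) :
    rho N n σ w = w := by
  obtain ⟨A, hA, hσA⟩ := hσ
  have : Fact q.Prime := ⟨hq⟩
  have hn : 0 < n := Nat.pos_of_ne_zero (by rintro rfl; exact hqn (dvd_zero q))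
  rw [rho_eq_one_of_inertia N n hn A q hq hA (hKL N q hqN A hA n hqn) σ hσA]
  rfl

theorem pkg_eichlerShimura (hKL : KLStatement) {N ℓ : ℕ} [NeZero N] [NeZero ℓ] (H : HeckeOp N ℓ)
    (n : ℕ) (hℓ : ℓ.Prime) (hℓN : ¬ ℓ ∣ N) (hℓn : ¬ ℓ ∣ n) (σ : GQ)
    (hσ : Fermat.Agent.S30.IsFrob σ ℓ) (w : W N n) :
    rho N n σ (rho N n σ w) - H.TW n (rho N n σ w) + (ℓ : ℕ) • w = 0 := by
  obtain ⟨A, hA, hσA⟩ := hσ
  have : Fact ℓ.Prime := ⟨hℓ⟩
  have hn : 0 < n := Nat.pos_of_ne_zero (by rintro rfl; exact hℓn (dvd_zero ℓ))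
  exact H.eichler_shimura n hn hℓ A hA (hKL N ℓ hℓN A hA n hℓn) σ hσA w

end Fermat.Agent.GAL.E

end
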