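/-
Cluster GAL, block E (helper203).  The `ℓ + 1` embeddings of `FN (N ℓ)` over `FN N`:
for every `b` there is `γ_b ∈ Γ₀(N)` such that `y ↦ texpL (γ_b • Psi y)` is
`x(q) ↦ x(t^(N ℓ))` on `α (FN N)` and `x(q^ℓ) ↦ x(ζ^b t^N)` on `β (FN N)`, `t = q^(1/(N ℓ))`.
-/
import Fermat.Agent.GAL.E.HeckeComm
import Fermat.Agent.S24.B.Gamma0

set_option autoImplicit false

noncomputable section

namespace Fermat.Agent.GAL.E

open ModularCurve AlgebraicCurve Fermat.Agent.S24 Fermat.Agent.S24.B CongruenceSubgroup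
open UpperHalfPlane
open scoped MatrixGroups Real

/-- two ring homomorphisms on `FN N` which agree on the constants and on the `j(q^d)` are equal -/
theorem ringHom_ext_FN {N : ℕ} [NeZero N] {R : Type*} [Field R] (φ₁ φ₂ : FN N →+* R)
    (hJ : ∀ (d : ℕ) (_ : NeZero d) (hd : d ∣ N), φ₁ (JF N d hd) = φ₂ (JF N d hd))
    (hc : ∀ c : Kbar, φ₁ (algebraMap Kbar (FN N) c) = φ₂ (algebraMap Kbar (FN N) c)) :
    φ₁ = φ₂ := by
  refine RingHom.ext fun f => ?_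
  refine FN_induction (P := fun f => φ₁ f = φ₂ f) hJ hc ?_ ?_ ?_ ?_ f
  · intro f g hf hg
    rw [map_add, map_add, hf, hg]
  · intro f hf
    rw [map_neg, map_neg, hf]
  · intro f g hf hg
    rw [map_mul, map_mul, hf, hg]
  · intro f hf
    rw [map_inv₀, map_inv₀, hf]

section
variable (N ℓ : ℕ) [NeZero N] [NeZero ℓ]

theorem heckeAlphaBar_JF (d : ℕ) [NeZero d] (hd : d ∣ N) :
    heckeAlphaBar Kbar N ℓ (JF N d hd) = JF (N * ℓ) d (hd.mul_right ℓ) :=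
  Subtype.ext (coe_heckeAlphaBar N ℓ _)

theorem heckeBetaBar_JF (d : ℕ) [NeZero d] (hd : d ∣ N) :
    heckeBetaBar Kbar N ℓ (JF N d hd) = JF (N * ℓ) (ℓ * d) (by
      rw [mul_comm N ℓ]; exact mul_dvd_mul_left ℓ hd) := by
  apply Subtype.ext
  show qExpand Kbar ℓ (Jser d) = Jser (ℓ * d)
  rw [Jser_eq_qExpand d, Jser_eq_qExpand (ℓ * d), ModularCurve.qExpand_qExpand]

/-- `Γ₀(N)` fixes `α (FN N)` inside `LN (N ℓ)` -/
theorem smul_Psi_alpha (γ : SL(2, ℤ)) (hγ : γ ∈ Gamma0 N) (x : FN N) :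
    γ • Psi (N * ℓ) (heckeAlphaBar Kbar N ℓ x) = Psi (N * ℓ) (heckeAlphaBar Kbar N ℓ x) := by
  have h1 : γ⁻¹ ∈ Gamma0 N := inv_mem hγ
  rw [Gamma0_mem, ZMod.intCast_zmod_eq_zero_iff_dvd] at h1
  have key : ((MulSemiringAction.toRingHom SL(2, ℤ) (LN (N * ℓ)) γ).comp
      ((Psi (N * ℓ)).toRingHom.comp (heckeAlphaBar Kbar N ℓ).toRingHom)) =
      ((Psi (N * ℓ)).toRingHom.comp (heckeAlphaBar Kbar N ℓ).toRingHom) := by
    refine ringHom_ext_FN _ _ ?_ ?_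
    · intro d _ hd
      show γ • Psi (N * ℓ) (heckeAlphaBar Kbar N ℓ (JF N d hd)) =
        Psi (N * ℓ) (heckeAlphaBar Kbar N ℓ (JF N d hd))
      rw [heckeAlphaBar_JF, Psi_JF, smul_algebraMap_AL,
        smul_jd_of_dvd γ d _ ((Int.natCast_dvd_natCast.mpr hd).trans h1)]
    · intro c
      show γ • Psi (N * ℓ) (heckeAlphaBar Kbar N ℓ (algebraMap Kbar (FN N) c)) =
        Psi (N * ℓ) (heckeAlphaBar Kbar N ℓ (algebraMap Kbar (FN N) c))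
      rw [AlgHom.commutes, AlgHom.commutes, smul_algebraMap_Kbar]
  exact RingHom.congr_fun key x

theorem texpL_Psi_alpha (x : FN N) :
    texpL (N * ℓ) (Psi (N * ℓ) (heckeAlphaBar Kbar N ℓ x)) =
      qExpand Kbar (N * ℓ) (x : LaurentSeries Kbar) := by
  rw [texpL_Psi]
  show qExpand Kbar (N * ℓ) ((heckeAlphaBar Kbar N ℓ x : FN (N * ℓ)) : LaurentSeries Kbar) = _
  rw [coe_heckeAlphaBar]

omit [NeZero N] in
/-- `diag(ℓ d, 1) δ = δ' [[d, d b], [0, ℓ]]` for `δ = [[1, b + q], [N, N b + s ℓ]]`,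
`ℓ s - N q = 1`, `d ∣ N`. -/
theorem jfun_dilMat_delta (d k : ℕ) [NeZero d] (hN : N = d * k) (δ : SL(2, ℤ)) (s q : ℤ) (b : ℕ)
    (hdet : (ℓ : ℤ) * s - N * q = 1) (hδ : δ.1 = !![1, (b : ℤ) + q; (N : ℤ), N * b + s * ℓ])
    (hd : (0 : ℤ) < (d : ℤ)) (hℓ : (0 : ℤ) < (ℓ : ℤ)) (τ : ℍ) :
    jfun (dilMat (ℓ * d) • δ • τ) = jfun (triMat (d : ℤ) ((d : ℤ) * b) (ℓ : ℤ) hd hℓ • τ) := by
  let δ' : SL(2, ℤ) := ⟨!![(ℓ : ℤ), d * q; (k : ℤ), s], by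
    rw [Matrix.det_fin_two_of]
    rw [hN] at hdet
    push_cast at hdet
    linear_combination hdet⟩
  have hgg : dilMat (ℓ * d) * (δ : GL (Fin 2) ℝ) =
      (δ' : GL (Fin 2) ℝ) * triMat (d : ℤ) ((d : ℤ) * b) (ℓ : ℤ) hd hℓ := by
    apply Units.ext
    rw [Units.val_mul, Units.val_mul, coe_triMat, coe_dilMat]
    have e1 : ((δ : GL (Fin 2) ℝ) : Matrix (Fin 2) (Fin 2) ℝ) = δ.1.map (Int.cast : ℤ → ℝ) := by
      ext i j; simp
    have e2 : ((δ' : GL (Fin 2) ℝ) : Matrix (Fin 2) (Fin 2) ℝ) = δ'.1.map (Int.cast : ℤ → ℝ) := by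
      ext i j; simp
    rw [e1, e2, hδ]
    ext i j
    fin_cases i <;> fin_cases j <;>
      simp [δ', Matrix.mul_apply, Fin.sum_univ_two, hN] <;> ring
  have h1 : dilMat (ℓ * d) • δ • τ = δ' • triMat (d : ℤ) ((d : ℤ) * b) (ℓ : ℤ) hd hℓ • τ := by
    show dilMat (ℓ * d) • (δ : GL (Fin 2) ℝ) • τ = (δ' : GL (Fin 2) ℝ) • _ • τ
    rw [← mul_smul, ← mul_smul, hgg]
  rw [h1, Stubs.jfun_smul]

theorem texp_smul_jd (d : ℕ) [NeZero d] (hd : d ∣ N) (δ : SL(2, ℤ)) (s q : ℤ) (b : ℕ)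
    (hdet : (ℓ : ℤ) * s - N * q = 1) (hδ : δ.1 = !![1, (b : ℤ) + q; (N : ℤ), N * b + s * ℓ])
    (h : ℓ * d ∣ N * ℓ) :
    texp (N * ℓ) (δ⁻¹ • jd (N * ℓ) (ℓ * d) h) =
      qExpand Kbar N (twist (zetaK ℓ ^ b) (Jser d)) := by
  obtain ⟨k, hk⟩ := hd
  have hd0 : (0 : ℤ) < (d : ℤ) := by exact_mod_cast Nat.pos_of_ne_zero (NeZero.ne d)
  have hℓ0 : (0 : ℤ) < (ℓ : ℤ) := by exact_mod_cast Nat.pos_of_ne_zero (NeZero.ne ℓ)
  apply texp_eq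
  have hfun : (δ⁻¹ • jd (N * ℓ) (ℓ * d) h).1 =
      fun τ => jfun (triMat (d : ℤ) ((d : ℤ) * b) (ℓ : ℤ) hd0 hℓ0 • τ) := by
    funext τ
    show jfun (dilMat (ℓ * d) • (δ⁻¹)⁻¹ • τ) = _
    rw [inv_inv]
    exact jfun_dilMat_delta N ℓ d k hk δ s q b hdet hδ hd0 hℓ0 τ
  rw [hfun]
  have hξ : iota (((zetaK ℓ ^ b) ^ d : Kbarˣ) : Kbar) =
      Complex.exp (2 * π * Complex.I * (((d : ℤ) * (b : ℤ) : ℤ) : ℂ) / ((ℓ : ℤ) : ℂ)) := by
    have h1 : (zetaK ℓ ^ b) ^ d = zetaK ℓ ^ ((d : ℤ) * (b : ℤ)) := by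
      rw [← pow_mul, ← zpow_natCast]
      congr 1
      push_cast
      ring
    rw [h1, iota_zetaK_zpow]
    simp
  have h2 := hasTExp_tri (N := N * ℓ) Stubs.hasTExp_jfun (d : ℤ) ((d : ℤ) * b) (ℓ : ℤ) hd0 hℓ0
    (N * d) (by push_cast; ring) ((zetaK ℓ ^ b) ^ d) hξ
  rw [Jser_eq_qExpand d, HeckeComm.twist_qExpand, ModularCurve.qExpand_qExpand]
  exact h2

/-- The matrices `γ_b`. -/
theorem exists_gamma (hℓN : Nat.Coprime ℓ N) (b : ℕ) :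
    ∃ γ : SL(2, ℤ), γ ∈ Gamma0 N ∧ ∀ x : FN N,
      texpL (N * ℓ) (γ • Psi (N * ℓ) (heckeBetaBar Kbar N ℓ x)) =
        qExpand Kbar N (twist (zetaK ℓ ^ b) (x : LaurentSeries Kbar)) := by
  set s : ℤ := Int.gcdA ℓ N with hs
  set q : ℤ := - Int.gcdB ℓ N with hq
  have hdet : (ℓ : ℤ) * s - N * q = 1 := by
    have h := Int.gcd_eq_gcd_ab ℓ N
    rw [Int.gcd_natCast_natCast, hℓN] at h
    rw [hs, hq]
    push_cast at h
    linarith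
  let δ : SL(2, ℤ) := ⟨!![1, (b : ℤ) + q; (N : ℤ), N * b + s * ℓ], by
    rw [Matrix.det_fin_two_of]
    linear_combination hdet⟩
  have hδ : δ.1 = !![1, (b : ℤ) + q; (N : ℤ), N * b + s * ℓ] := rfl
  have hδmem : δ ∈ Gamma0 N := by
    rw [Gamma0_mem]
    show (((!![1, (b : ℤ) + q; (N : ℤ), N * b + s * ℓ] : Matrix (Fin 2) (Fin 2) ℤ) 1 0 : ℤ) :
      ZMod N) = 0
    simp
  refine ⟨δ⁻¹, inv_mem hδmem, ?_⟩
  have key : ((texpL (N * ℓ)).toRingHom.comp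
      ((MulSemiringAction.toRingHom SL(2, ℤ) (LN (N * ℓ)) δ⁻¹).comp
      ((Psi (N * ℓ)).toRingHom.comp (heckeBetaBar Kbar N ℓ).toRingHom))) =
      ((qExpand Kbar N).comp ((twist (zetaK ℓ ^ b)).comp
        (modularFunctionFieldBar N).val.toRingHom)) := by
    refine ringHom_ext_FN _ _ ?_ ?_
    · intro d _ hd
      show texpL (N * ℓ) (δ⁻¹ • Psi (N * ℓ) (heckeBetaBar Kbar N ℓ (JF N d hd))) =
        qExpand Kbar N (twist (zetaK ℓ ^ b) (Jser d))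
      rw [heckeBetaBar_JF, Psi_JF, smul_algebraMap_AL, texpL_algebraMap,
        texp_smul_jd N ℓ d hd δ s q b hdet hδ]
    · intro c
      show texpL (N * ℓ) (δ⁻¹ • Psi (N * ℓ) (heckeBetaBar Kbar N ℓ (algebraMap Kbar (FN N) c))) =
        qExpand Kbar N (twist (zetaK ℓ ^ b) (algebraMap Kbar (LaurentSeries Kbar) c))
      rw [AlgHom.commutes, AlgHom.commutes, smul_algebraMap_Kbar, AlgHom.commutes,
        algebraMap_laurentSeries_eq_single]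
      have h0 : (HahnSeries.single 0 c : LaurentSeries Kbar) = HahnSeries.C c := rfl
      rw [h0, twist_C, qExpand_C]
  exact fun x => RingHom.congr_fun key x

/-- For every `b` there is a ring hom `FN (N ℓ) → ℚ̄((t))`, `t = q^(1/(N ℓ))`, which is
`x(q) ↦ x(t^(N ℓ))` on `FN N` and `x(q^ℓ) ↦ x(ζ^b t^N)` on `β (FN N)`. -/
theorem exists_embedding (hℓN : Nat.Coprime ℓ N) (b : ℕ) :
    ∃ τ : FN (N * ℓ) →+* LaurentSeries Kbar,
      (∀ x : FN N, τ (heckeAlphaBar Kbar N ℓ x) = qExpand Kbar (N * ℓ) (x : LaurentSeries Kbar)) ∧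
      (∀ x : FN N, τ (heckeBetaBar Kbar N ℓ x) =
        qExpand Kbar N (twist (zetaK ℓ ^ b) (x : LaurentSeries Kbar))) := by
  obtain ⟨γ, hγ, h⟩ := exists_gamma N ℓ hℓN b
  refine ⟨(texpL (N * ℓ)).toRingHom.comp
      ((MulSemiringAction.toRingHom SL(2, ℤ) (LN (N * ℓ)) γ).comp (Psi (N * ℓ)).toRingHom),
    fun x => ?_, h⟩
  show texpL (N * ℓ) (γ • Psi (N * ℓ) (heckeAlphaBar Kbar N ℓ x)) = _
  rw [smul_Psi_alpha N ℓ γ hγ, texpL_Psi_alpha]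

end

end Fermat.Agent.GAL.E

end
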