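/-
Cluster GAL, block E (helper203).  The multiplicative Hecke operator `heckeF = Norm_α ∘ β` preserves
the elements whose divisor is divisible by `n`
(from the norm formula `S37/HeckeInputs`, helper105).
-/
import Fermat.Agent.GAL.E.Defs
import Fermat.Agent.S37.HeckeInputs.Main

set_option autoImplicit false

noncomputable section

namespace Fermat.Agent.GAL.E

open ModularCurve AlgebraicCurve Fermat.Agent.S24 Fermat.Agent.S37.HeckeInputs

/-- divisibility of the divisor of a norm -/
theorem dvd_ord_norm {K F F' : Type*} [Field K] [IsAlgClosed K] [CharZero K] [Field F] [Field F']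
    [Algebra K F] [Algebra K F'] [Algebra F F'] [IsScalarTower K F F'] [FF.IsFF1 K F]
    [FF.IsFF1 K F'] [Module.Finite F F'] (n : ℤ) (y : F')
    (hy : ∀ w : Place K F', n ∣ w.ord y) (v : Place K F) : n ∣ v.ord (Algebra.norm F y) := by
  rcases eq_or_ne y 0 with rfl | hy0
  · simp
  have : HasPrincipalDivisors K F' := hasPrincipalDivisors
  rw [ord_norm v y hy0]
  exact Finset.dvd_sum fun w _ => hy w

theorem IsKum.beta {N n : ℕ} (ℓ : ℕ) [NeZero N] [NeZero ℓ] {u : FN N} (hu : IsKum N n u) :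
    IsKum (N * ℓ) n (heckeBetaBar Kbar N ℓ u) := by
  intro w
  rw [Place.ord_restrictAlong (heckeBetaBar Kbar N ℓ) (beta_integral N ℓ) w u]
  exact Dvd.dvd.mul_left (hu _) _

theorem IsKum.heckeF {N n : ℕ} (ℓ : ℕ) [NeZero N] [NeZero ℓ] {u : FN N} (hu : IsKum N n u) :
    IsKum N n (heckeF N ℓ u) := by
  intro v
  let _ := algAlpha N ℓ
  have h1 : IsScalarTower Kbar (FN N) (FN (N * ℓ)) := isScalarTower_along (heckeAlphaBar Kbar N ℓ)
  have h2 : Module.Finite (FN N) (FN (N * ℓ)) := alpha_finite N ℓ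
  exact dvd_ord_norm (K := Kbar) (F := FN N) (F' := FN (N * ℓ)) (n : ℤ)
    (heckeBetaBar Kbar N ℓ u) (hu.beta ℓ) v

end Fermat.Agent.GAL.E

end
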