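/-
Cluster GAL, block E.  TASK GAL-E7: Frobenius congruences for Laurent series.  Proofs: helper82.
-/
import Fermat.Agent.GAL.E.HeckeOp

set_option autoImplicit false
set_option linter.style.haveILetI false

noncomputable section

namespace Fermat.Agent.GAL.E

open ModularCurve AlgebraicCurve Fermat.Agent.S24 Fermat.Agent.S24.B

namespace Frob

/-- the statement for power series -/
theorem pow_char_ofPowerSeries {k : Type*} [Field k] (ℓ : ℕ) [Fact ℓ.Prime] [CharP k ℓ]
    (f : PowerSeries k) :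
    (HahnSeries.ofPowerSeries ℤ k f) ^ ℓ =
      qExpand k ℓ (coeffMap (frobenius k ℓ) (HahnSeries.ofPowerSeries ℤ k f)) := by
  have hℓ : ℓ ≠ 0 := (Fact.out : ℓ.Prime).ne_zero
  have key : PowerSeries.map (frobenius k ℓ) (PowerSeries.expand ℓ hℓ f) = f ^ ℓ :=
    MvPowerSeries.map_frobenius_expand (σ := Unit) ℓ hℓ (f := f)
  rw [← map_pow, ← key]
  ext n
  have hc : ∀ (g : PowerSeries k) (i : ℤ), (HahnSeries.ofPowerSeries ℤ k g).coeff i =
      if i < 0 then 0 else PowerSeries.coeff i.natAbs g := fun g i => PowerSeries.coeff_coe g i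
  by_cases hn : (ℓ : ℤ) ∣ n
  · obtain ⟨m, rfl⟩ := hn
    rw [qExpand_coeff_mul, coeffMap_coeff, hc, hc]
    have hℓpos : (0 : ℤ) < ℓ := by exact_mod_cast Nat.pos_of_ne_zero hℓ
    by_cases hm : m < 0
    · rw [if_pos hm, if_pos (mul_neg_of_pos_of_neg hℓpos hm), map_zero]
    · rw [if_neg hm, if_neg (not_lt.mpr (mul_nonneg hℓpos.le (not_lt.mp hm))), PowerSeries.coeff_map,
        Int.natAbs_mul, Int.natAbs_natCast, PowerSeries.coeff_expand_mul]
  · rw [qExpand_coeff_of_not_dvd _ _ hn, hc]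
    split_ifs with h0
    · rfl
    · rw [PowerSeries.coeff_map, PowerSeries.coeff_expand_of_not_dvd, map_zero]
      intro h
      exact hn (Int.natCast_dvd.mpr h)

end Frob

theorem pow_char_eq_qExpand {k : Type*} [Field k] (ℓ : ℕ) [Fact ℓ.Prime] [CharP k ℓ]
    (x : LaurentSeries k) : x ^ ℓ = qExpand k ℓ (coeffMap (frobenius k ℓ) x) := by
  conv_lhs => rw [← LaurentSeries.single_order_mul_powerSeriesPart x]
  conv_rhs => rw [← LaurentSeries.single_order_mul_powerSeriesPart x]
  rw [mul_pow, map_mul, map_mul, Frob.pow_char_ofPowerSeries, coeffMap_single, qExpand_single,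
    HahnSeries.single_pow, map_one, one_pow, nsmul_eq_mul]

theorem charP_residueField (A : ValuationSubring Kbar) (ℓ : ℕ) (hℓ : ℓ.Prime)
    (hA : A.LiesOverPrime ℓ) : CharP (IsLocalRing.ResidueField A) ℓ := by
  rw [CharP.charP_iff_prime_eq_zero hℓ]
  have h1 : ((ℓ : A) : Kbar) ∈ A.nonunits := by
    have h0 : (ℓ : Kbar) ∈ A.nonunits := hA
    simpa using h0
  have h2 : (ℓ : A) ∈ IsLocalRing.maximalIdeal A := by
    rw [← ValuationSubring.coe_mem_nonunits_iff]
    exact h1
  have h3 : IsLocalRing.residue A (ℓ : A) = 0 := (IsLocalRing.residue_eq_zero_iff _).mpr h2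
  rw [← h3, map_natCast]

namespace Frob

/-- an `ℓ`-th root of unity lies in `A` and reduces to `1`. -/
theorem exists_root_of_unity (A : ValuationSubring Kbar) (ℓ : ℕ) (hℓ : ℓ.Prime)
    (hA : A.LiesOverPrime ℓ) (z : Kbar) (hz : z ^ ℓ = 1) :
    ∃ a : A, (a : Kbar) = z ∧ IsLocalRing.residue A a = 1 := by
  haveI : Fact ℓ.Prime := ⟨hℓ⟩
  haveI := charP_residueField A ℓ hℓ hA
  have hv : A.valuation z = 1 := by
    have h := congrArg A.valuation hz
    rw [map_pow, map_one] at h
    exact (pow_eq_one_iff.mp h).resolve_right hℓ.ne_zero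
  have hzA : z ∈ A := (A.valuation_le_one_iff z).mp hv.le
  refine ⟨⟨z, hzA⟩, rfl, ?_⟩
  have h1 : (⟨z, hzA⟩ : A) ^ ℓ = 1 := Subtype.ext hz
  have h2 : (IsLocalRing.residue A ⟨z, hzA⟩) ^ ℓ = 1 := by rw [← map_pow, h1, map_one]
  have h3 : (IsLocalRing.residue A ⟨z, hzA⟩ - 1) ^ ℓ = 0 := by
    rw [sub_pow_char, h2, one_pow, sub_self]
  exact sub_eq_zero.mp (pow_eq_zero_iff hℓ.ne_zero |>.mp h3)

end Frob

/-- twisting by an `ℓ`-th root of unity does not change the reduction -/
theorem exists_twist (A : ValuationSubring Kbar) (ℓ : ℕ) (hℓ : ℓ.Prime) (hA : A.LiesOverPrime ℓ)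
    (ζ : Kbarˣ) (hζ : ζ ^ ℓ = 1) (x : LaurentSeries A) :
    ∃ x' : LaurentSeries A, incl A x' = twist ζ (incl A x) ∧ red A x' = red A x := by
  have hex : ∀ n : ℤ, ∃ a : A, (a : Kbar) = ((ζ ^ n : Kbarˣ) : Kbar) ∧
      IsLocalRing.residue A a = 1 := by
    intro n
    apply Frob.exists_root_of_unity A ℓ hℓ hA
    rw [← Units.val_pow_eq_pow_val, ← zpow_natCast, ← zpow_mul, mul_comm, zpow_mul, zpow_natCast,
      hζ, one_zpow, Units.val_one]
  choose a ha ha' using hex
  refine ⟨{ coeff := fun n => a n * x.coeff n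
            isPWO_support' := x.isPWO_support.mono (by
              intro n hn
              simp only [Function.mem_support, ne_eq] at hn
              rw [HahnSeries.mem_support]
              intro h0
              exact hn (by rw [h0, mul_zero])) }, ?_, ?_⟩
  · ext n
    rw [twist_coeff, coeffMap_coeff, coeffMap_coeff]
    show ((a n * x.coeff n : A) : Kbar) = _
    rw [← ha n]
    rfl
  · ext n
    rw [coeffMap_coeff, coeffMap_coeff]
    show IsLocalRing.residue A (a n * x.coeff n) = _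
    rw [map_mul, ha' n, one_mul]

end Fermat.Agent.GAL.E

end
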