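/-
Cluster GAL, block E, node E2 (task GAL-E2b, helper289):
`FN (N ℓ)` is finite of degree `ℓ + 1` over `FN N` (through `α`), for a prime `ℓ ∤ N`.
-/
import Fermat.Agent.GAL.E.Defs
import Fermat.Agent.S37.HeckeInputs.Main
import Fermat.Agent.S24.Export.Ramification
import Fermat.Agent.Lib.Gamma0CountIndex

set_option autoImplicit false

noncomputable section

namespace Fermat.Agent.GAL.E

open ModularCurve AlgebraicCurve Fermat.Agent.S24 IntermediateField

namespace Degree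

/-- abstract tower computation: if `α : F → F'` maps `x` to `x'` then
`[F : K(x)] * [F' : α F] = [F' : K(x')]`. -/
theorem finrank_mul_finrank_along {K F F' : Type*} [Field K] [Field F] [Field F'] [Algebra K F]
    [Algebra K F'] (α : F →ₐ[K] F') (x : F) (x' : F') (hx : α x = x') :
    letI := α.toRingHom.toAlgebra
    Module.finrank K⟮x⟯ F * Module.finrank F F' = Module.finrank K⟮x'⟯ F' := by
  let _ := α.toRingHom.toAlgebra
  let _ : Algebra K⟮x⟯ F' := ((algebraMap F F').comp (algebraMap K⟮x⟯ F)).toAlgebra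
  have : IsScalarTower K⟮x⟯ F F' := IsScalarTower.of_algebraMap_eq (fun _ => rfl)
  rw [Module.finrank_mul_finrank K⟮x⟯ F F']
  have hmap : (K⟮x⟯).map α = K⟮x'⟯ := by
    rw [IntermediateField.adjoin_map, Set.image_singleton, hx]
  let i : K⟮x⟯ ≃+* K⟮x'⟯ :=
    ((K⟮x⟯).equivMap α).toRingEquiv.trans (IntermediateField.equivOfEq hmap).toRingEquiv
  refine Algebra.finrank_eq_of_equiv_equiv i (RingEquiv.refl F') ?_
  ext a
  rfl

/-- the index of `Γ₀(N ℓ)`. -/
theorem index_Gamma0_mul {N ℓ : ℕ} (hN : N ≠ 0) (hℓ : ℓ.Prime) (hℓN : ¬ ℓ ∣ N) :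
    (CongruenceSubgroup.Gamma0 (N * ℓ)).index = (ℓ + 1) * (CongruenceSubgroup.Gamma0 N).index := by
  rw [Nat.mul_comm N ℓ, ← Subgroup.relIndex_mul_index (Lib.Gamma0Count.Gamma0_mul_le ℓ N),
    Lib.Gamma0Count.relIndex_of_not_dvd hN hℓ hℓN]

end Degree

section Degree
variable (N ℓ : ℕ) [NeZero N] [NeZero ℓ]

theorem finite_algAlpha : letI := algAlpha N ℓ; Module.Finite (FN N) (FN (N * ℓ)) :=
  Fermat.Agent.S37.HeckeInputs.alpha_finite N ℓ

theorem finrank_algAlpha (hℓ : ℓ.Prime) (hℓN : ¬ ℓ ∣ N) :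
    letI := algAlpha N ℓ; Module.finrank (FN N) (FN (N * ℓ)) = ℓ + 1 := by
  have hj : heckeAlphaBar Kbar N ℓ (jF N) = jF (N * ℓ) := Subtype.ext (coe_heckeAlphaBar N ℓ _)
  have h := Degree.finrank_mul_finrank_along (heckeAlphaBar Kbar N ℓ) (jF N) (jF (N * ℓ)) hj
  rw [Export.finrank_eq_index N, Export.finrank_eq_index (N * ℓ),
    Degree.index_Gamma0_mul (NeZero.ne N) hℓ hℓN, Nat.mul_comm] at h
  have h0 : (CongruenceSubgroup.Gamma0 N).index ≠ 0 := Subgroup.FiniteIndex.index_ne_zero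
  exact Nat.eq_of_mul_eq_mul_right (Nat.pos_of_ne_zero h0) h

theorem heckeBetaBarIntegral : HeckeBetaBarIntegral Kbar N ℓ :=
  Fermat.Agent.S37.HeckeInputs.beta_integral N ℓ

end Degree

end Fermat.Agent.GAL.E

end
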