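/-
Cluster GAL, block E, node E4 (owner helper106): the norm is the product over a full set of
embeddings (into any field, not necessarily algebraically closed).
-/
import Mathlib

set_option autoImplicit false

namespace Fermat.Agent.GAL.E

theorem algebraMap_norm_eq_prod {F E Ω ι : Type*} [Field F] [Field E] [Field Ω] [Algebra F E]
    [Algebra F Ω] [FiniteDimensional F E] [Algebra.IsSeparable F E] [Fintype ι]
    (τ : ι → E →ₐ[F] Ω) (hτ : Function.Injective τ) (hcard : Fintype.card ι = Module.finrank F E)
    (y : E) : algebraMap F Ω (Algebra.norm F y) = ∏ i, τ i y := by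
  classical
  let Ωb := AlgebraicClosure Ω
  let j : Ω →ₐ[F] Ωb := IsScalarTower.toAlgHom F Ω Ωb
  have hj : Function.Injective j := (algebraMap Ω Ωb).injective
  let τ' : ι → E →ₐ[F] Ωb := fun i => j.comp (τ i)
  have hτ' : Function.Injective τ' := by
    intro a b hab
    apply hτ
    ext e
    apply hj
    exact congrArg (fun φ : E →ₐ[F] Ωb => φ e) hab
  have hbij : Function.Bijective τ' := by
    rw [Fintype.bijective_iff_injective_and_card]
    exact ⟨hτ', by rw [hcard, AlgHom.card]⟩
  apply hj
  have h1 : j (algebraMap F Ω (Algebra.norm F y)) = algebraMap F Ωb (Algebra.norm F y) :=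
    j.commutes _
  rw [h1, Algebra.norm_eq_prod_embeddings F Ωb y, map_prod]
  exact (Function.Bijective.prod_comp hbij (fun σ : E →ₐ[F] Ωb => σ y)).symm

end Fermat.Agent.GAL.E
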