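/-
Cluster GAL, block E, node E6 (owner helper106): the product formula for the `q`-expansion of the
multiplicative Hecke operator `heckeF N ℓ u = Norm_α (β u)`.
-/
import Fermat.Agent.GAL.E.Embed
import Fermat.Agent.GAL.E.Degree
import Fermat.Agent.GAL.E.NormProd

set_option autoImplicit false

noncomputable section

namespace Fermat.Agent.GAL.E

open ModularCurve AlgebraicCurve Fermat.Agent.S24 Fermat.Agent.S24.B

namespace QExp

/-- ring hom version of `algebraMap_norm_eq_prod` -/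
theorem map_norm_eq_prod {F E Ω ι : Type*} [Field F] [Field E] [Field Ω] [Algebra F E]
    [FiniteDimensional F E] [Algebra.IsSeparable F E] [Fintype ι] (i : F →+* Ω)
    (σ : ι → E →+* Ω) (hi : ∀ k x, σ k (algebraMap F E x) = i x) (hσ : Function.Injective σ)
    (hcard : Fintype.card ι = Module.finrank F E) (y : E) :
    i (Algebra.norm F y) = ∏ k, σ k y := by
  let _ : Algebra F Ω := i.toAlgebra
  let σ' : ι → E →ₐ[F] Ω := fun k => { σ k with commutes' := fun x => hi k x }
  have hσ' : Function.Injective σ' := by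
    intro a b hab
    apply hσ
    ext e
    exact congrArg (fun φ : E →ₐ[F] Ω => φ e) hab
  exact algebraMap_norm_eq_prod σ' hσ' hcard y

theorem coeff_Jser_one_neg_one : (Jser 1).coeff (-1 : ℤ) = 1 := by
  rw [Formal.Jser_one, coeffEmb_coeff, coeff_jq_neg_one, map_one]

/-- `x(q) ↦ x(t^m)` on the function field -/
def expHom (M m : ℕ) [NeZero m] : FN M →+* LaurentSeries Kbar :=
  (qExpand Kbar m).comp (modularFunctionFieldBar M).val.toRingHom

theorem expHom_apply (M m : ℕ) [NeZero m] (x : FN M) :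
    expHom M m x = qExpand Kbar m (x : LaurentSeries Kbar) := rfl

theorem heckeF_apply (N ℓ : ℕ) [NeZero N] [NeZero ℓ] (u : FN N) :
    heckeF N ℓ u = @Algebra.norm (FN N) (FN (N * ℓ)) _ _ (algAlpha N ℓ)
      (heckeBetaBar Kbar N ℓ u) := rfl

theorem algebraMap_algAlpha (N ℓ : ℕ) [NeZero N] [NeZero ℓ] (x : FN N) :
    @algebraMap (FN N) (FN (N * ℓ)) _ _ (algAlpha N ℓ) x = heckeAlphaBar Kbar N ℓ x := rfl

/-- the family of embeddings is injective -/
theorem injective_family (N ℓ : ℕ) [NeZero N] [NeZero ℓ] (hℓ : ℓ.Prime)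
    (τ : ℕ → FN (N * ℓ) →+* LaurentSeries Kbar)
    (hτβ : ∀ (b : ℕ) (x : FN N), τ b (heckeBetaBar Kbar N ℓ x) =
        qExpand Kbar N (twist (zetaK ℓ ^ b) (x : LaurentSeries Kbar))) :
    Function.Injective (fun k : Option (Fin ℓ) =>
      (k.elim (expHom (N * ℓ) (N * ℓ)) fun b => τ b : FN (N * ℓ) →+* LaurentSeries Kbar)) := by
  have hjcoe : ((jF N : FN N) : LaurentSeries Kbar) = Jser 1 := rfl
  have vnone : expHom (N * ℓ) (N * ℓ) (heckeBetaBar Kbar N ℓ (jF N)) =
      qExpand Kbar (N * ℓ) (qExpand Kbar ℓ (Jser 1)) := by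
    rw [expHom_apply, coe_heckeBetaBar, hjcoe]
  have vsome : ∀ b : ℕ, τ b (heckeBetaBar Kbar N ℓ (jF N)) =
      qExpand Kbar N (twist (zetaK ℓ ^ b) (Jser 1)) := by
    intro b
    rw [hτβ, hjcoe]
  have hNpos : (0 : ℤ) < N := by exact_mod_cast Nat.pos_of_ne_zero (NeZero.ne N)
  have hne : ∀ b : ℕ, expHom (N * ℓ) (N * ℓ) ≠ τ b := by
    intro b h
    have h1 := congrArg (fun φ : FN (N * ℓ) →+* LaurentSeries Kbar =>
      (φ (heckeBetaBar Kbar N ℓ (jF N))).order) h
    simp only [vnone, vsome, order_qExpand, order_twist, order_Jser_one] at h1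
    have h2 : (N : ℤ) * ((ℓ : ℤ) * ℓ) = N * 1 := by push_cast at h1; linarith
    have h3 : (ℓ : ℤ) * ℓ = 1 := mul_left_cancel₀ hNpos.ne' h2
    have h4 : ℓ * ℓ = 1 := by exact_mod_cast h3
    have h5 := hℓ.two_le
    nlinarith
  intro a b hab
  match a, b with
  | none, none => rfl
  | none, some b => exact absurd hab (hne b)
  | some a, none => exact absurd hab.symm (hne a)
  | some a, some b =>
    have h1 := congrArg (fun φ : FN (N * ℓ) →+* LaurentSeries Kbar =>
      φ (heckeBetaBar Kbar N ℓ (jF N))) hab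
    simp only [Option.elim_some, vsome] at h1
    have h2 := congrArg (fun s : LaurentSeries Kbar => s.coeff (-1 : ℤ))
      (ModularCurve.qExpand_injective N h1)
    simp only [twist_coeff, coeff_Jser_one_neg_one, mul_one] at h2
    have h3 : (zetaK ℓ ^ (a : ℕ)) ^ (-1 : ℤ) = (zetaK ℓ ^ (b : ℕ)) ^ (-1 : ℤ) := Units.ext h2
    rw [zpow_neg_one, zpow_neg_one, inv_inj] at h3
    exact congrArg some (Fin.ext ((isPrimitiveRoot_zetaK ℓ).pow_inj a.2 b.2 h3))

end QExp

open QExp in
theorem qExpand_heckeF (N ℓ : ℕ) [NeZero N] [NeZero ℓ] (hℓ : ℓ.Prime) (hℓN : ¬ ℓ ∣ N) (u : FN N) :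
    qExpand Kbar ℓ ((heckeF N ℓ u : FN N) : LaurentSeries Kbar) =
      qExpand Kbar (ℓ * ℓ) (u : LaurentSeries Kbar) *
        ∏ b ∈ Finset.range ℓ, twist (zetaK ℓ ^ b) (u : LaurentSeries Kbar) := by
  have hcop : Nat.Coprime ℓ N := (Nat.Prime.coprime_iff_not_dvd hℓ).2 hℓN
  choose τ hτα hτβ using fun b : ℕ => exists_embedding N ℓ hcop b
  let _ := algAlpha N ℓ
  have : Module.Finite (FN N) (FN (N * ℓ)) := finite_algAlpha N ℓ
  have : CharZero (FN N) := charZero_of_injective_algebraMap (algebraMap Kbar (FN N)).injective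
  have hcard : Fintype.card (Option (Fin ℓ)) = Module.finrank (FN N) (FN (N * ℓ)) := by
    rw [finrank_algAlpha N ℓ hℓ hℓN, Fintype.card_option, Fintype.card_fin]
  have key := map_norm_eq_prod (expHom N (N * ℓ))
    (fun k : Option (Fin ℓ) =>
      (k.elim (expHom (N * ℓ) (N * ℓ)) fun b => τ b : FN (N * ℓ) →+* LaurentSeries Kbar))
    (by
      intro k x
      rw [algebraMap_algAlpha]
      match k with
      | none => rw [Option.elim_none, expHom_apply, expHom_apply, coe_heckeAlphaBar]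
      | some b => rw [Option.elim_some, hτα, expHom_apply])
    (injective_family N ℓ hℓ τ hτβ) hcard (heckeBetaBar Kbar N ℓ u)
  rw [Fintype.prod_option, ← heckeF_apply] at key
  simp only [Option.elim_none, Option.elim_some, hτβ, expHom_apply, coe_heckeBetaBar] at key
  rw [← ModularCurve.qExpand_qExpand ℓ N, ← ModularCurve.qExpand_qExpand ℓ N,
    ModularCurve.qExpand_qExpand ℓ ℓ, ← map_prod, ← map_mul] at key
  rw [ModularCurve.qExpand_injective N key, Fin.prod_univ_eq_prod_range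
    (fun b : ℕ => twist (zetaK ℓ ^ b) (u : LaurentSeries Kbar)) ℓ]

end Fermat.Agent.GAL.E

end
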