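/-
Cluster GAL, block E (owner helper96): pure algebra.  A family of pairwise commuting endomorphisms
`T i` of an abelian group `W` makes `W` a module over `ℤ[X_i]`; a group acting on `W` and commuting
with the `T i` acts by module endomorphisms.
-/
import Mathlib

set_option autoImplicit false

noncomputable section

namespace Fermat.Agent.GAL.E

open MvPolynomial

variable {W : Type*} [AddCommGroup W] (T : ℕ → AddMonoid.End W)

/-- the endomorphisms `T i` as `ℤ`-linear maps -/
def linT (i : ℕ) : Module.End ℤ W := (T i).toIntLinearMap

theorem linT_apply (i : ℕ) (w : W) : linT T i w = T i w := rfl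

variable (hT : ∀ i j, Commute (T i) (T j))

include hT in
theorem commute_linT (i j : ℕ) : linT T i * linT T j = linT T j * linT T i := by
  refine LinearMap.ext fun w => ?_
  exact DFunLike.congr_fun (hT i j).eq w

/-- the commutative subalgebra generated by the `T i` -/
abbrev adjT : Subalgebra ℤ (Module.End ℤ W) := Algebra.adjoin ℤ (Set.range (linT T))

/-- its commutative ring structure -/
abbrev adjTCommRing : CommRing (adjT T) :=
  { (inferInstance : Ring (adjT T)) with
    mul_comm := (Algebra.isMulCommutative_adjoin ℤ (by
      rintro _ ⟨i, rfl⟩ _ ⟨j, rfl⟩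
      exact commute_linT T hT i j)).is_comm.comm }

/-- the ring homomorphism `ℤ[X_i] → End W`, `X_i ↦ T i` -/
def haHom : MvPolynomial ℕ ℤ →+* Module.End ℤ W :=
  let _ : CommRing (adjT T) := adjTCommRing T hT
  (adjT T).val.toRingHom.comp
    (aeval fun i => (⟨linT T i, Algebra.subset_adjoin ⟨i, rfl⟩⟩ : adjT T)).toRingHom

theorem haHom_X (i : ℕ) : haHom T hT (X i) = linT T i := by
  let _ : CommRing (adjT T) := adjTCommRing T hT
  show (adjT T).val (aeval (fun i => (⟨linT T i, Algebra.subset_adjoin ⟨i, rfl⟩⟩ : adjT T)) (X i))
    = linT T i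
  rw [aeval_X]
  rfl

/-- the module structure over `ℤ[X_i]` -/
abbrev haModule : Module (MvPolynomial ℕ ℤ) W := Module.compHom W (haHom T hT)

theorem haModule_smul_def (P : MvPolynomial ℕ ℤ) (w : W) :
    letI := haModule T hT
    P • w = haHom T hT P w := rfl

theorem haModule_X_smul (i : ℕ) (w : W) :
    letI := haModule T hT
    (X i : MvPolynomial ℕ ℤ) • w = T i w := by
  rw [haModule_smul_def, haHom_X, linT_apply]

/-- an additive endomorphism commuting with all `T i` commutes with the whole algebra -/
theorem haHom_commute (f : AddMonoid.End W) (hf : ∀ i, Commute f (T i))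
    (P : MvPolynomial ℕ ℤ) (w : W) : f (haHom T hT P w) = haHom T hT P (f w) := by
  induction P using MvPolynomial.induction_on generalizing w with
  | C a =>
      have h : haHom T hT (C a) = algebraMap ℤ (Module.End ℤ W) a := by
        rw [show (C a : MvPolynomial ℕ ℤ) = ((a : ℤ) : MvPolynomial ℕ ℤ) by simp, map_intCast]
        simp
      rw [h, Module.algebraMap_end_apply, Module.algebraMap_end_apply, map_zsmul]
  | add p q hp hq =>
      rw [map_add, LinearMap.add_apply, LinearMap.add_apply, map_add, hp, hq]
  | mul_X p i hp =>
      rw [map_mul, haHom_X, Module.End.mul_apply, Module.End.mul_apply, hp, linT_apply, linT_apply]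
      exact congrArg _ (DFunLike.congr_fun (hf i).eq w)

/-- an additive endomorphism commuting with all `T i`, as a module endomorphism -/
def haEnd (f : AddMonoid.End W) (hf : ∀ i, Commute f (T i)) :
    letI := haModule T hT
    Module.End (MvPolynomial ℕ ℤ) W :=
  letI := haModule T hT
  { toFun := f
    map_add' := map_add f
    map_smul' := fun P w => haHom_commute T hT f hf P w }

theorem haEnd_apply (f : AddMonoid.End W) (hf : ∀ i, Commute f (T i)) (w : W) :
    haEnd T hT f hf w = f w := rfl

/-- a group action commuting with all `T i`, as an action by module endomorphisms -/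
def haRep {G : Type*} [Monoid G] (ρ : G →* AddMonoid.End W) (hρ : ∀ g i, Commute (ρ g) (T i)) :
    letI := haModule T hT
    G →* Module.End (MvPolynomial ℕ ℤ) W :=
  letI := haModule T hT
  { toFun := fun g => haEnd T hT (ρ g) (hρ g)
    map_one' := by
      refine LinearMap.ext fun w => ?_
      rw [haEnd_apply, map_one]
      rfl
    map_mul' := fun g h => by
      refine LinearMap.ext fun w => ?_
      rw [haEnd_apply, map_mul]
      rfl }

theorem haRep_apply {G : Type*} [Monoid G] (ρ : G →* AddMonoid.End W)
    (hρ : ∀ g i, Commute (ρ g) (T i)) (g : G) (w : W) : haRep T hT ρ hρ g w = ρ g w := rfl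

end Fermat.Agent.GAL.E

end
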