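/-
Cluster GAL, block E (owner helper96): packaging of the Kummer model `W N (p ^ k)` into the
structure `Fermat.Agent.S30.Level`.

Inputs proved elsewhere are hypotheses, stated verbatim as in `GAL/E/Main.lean`:
* `H`                a multiplicative Hecke operator `HeckeOp N ℓ` for every prime `ℓ ∤ N`
* `InertiaStmt N n`  `KL` implies that inertia acts trivially (`rho_eq_one_of_inertia`)
* `ESStmt N n`       `KL` implies the Eichler-Shimura relation (`HeckeOp.eichler_shimura`)
* `KLStatement`, finiteness of `W N n` and faithfulness (blocks KL, M, H, NV).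
-/
import Fermat.Agent.GAL.E.FiniteLevel
import Fermat.Agent.GAL.E.HeckeComm
import Fermat.Agent.GAL.E.HAModule
import Fermat.Agent.S30.Defs

set_option autoImplicit false

noncomputable section

namespace Fermat.Agent.GAL.E

open ModularCurve AlgebraicCurve Fermat.Agent.S24 Fermat.Agent.S24.B

/-- Shortcut instance (the generic search fails when it is nested inside another search). -/
instance instAddCommGroupW (N n : ℕ) : AddCommGroup (W N n) := inferInstance

theorem Level.commute_TW {N ℓ ℓ' : ℕ} [NeZero ℓ] [NeZero ℓ'] (hc : Nat.Coprime ℓ ℓ')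
    (H : HeckeOp N ℓ) (H' : HeckeOp N ℓ') (n : ℕ) : Commute (H.TW n) (H'.TW n) := by
  refine AddMonoidHom.ext fun x => ?_
  obtain ⟨u, rfl⟩ := cls_surjective x
  show H.TW n (H'.TW n (cls u)) = H'.TW n (H.TW n (cls u))
  rw [HeckeOp.TW_cls, HeckeOp.TW_cls, HeckeOp.TW_cls, HeckeOp.TW_cls]
  exact congrArg cls (Subtype.ext (Units.ext (HeckeOp.T_comm hc H H' _)))

theorem Level.commute_rho_TW {N ℓ : ℕ} [NeZero ℓ] (H : HeckeOp N ℓ) (n : ℕ) (σ : GQ) :
    Commute (rho N n σ) (H.TW n) := by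
  refine AddMonoidHom.ext fun x => ?_
  obtain ⟨u, rfl⟩ := cls_surjective x
  show rho N n σ (H.TW n (cls u)) = H.TW n (rho N n σ (cls u))
  rw [HeckeOp.TW_cls, rho_cls, rho_cls, HeckeOp.TW_cls]
  exact congrArg cls (Subtype.ext (Units.ext (H.galF_T σ _)))

/-- The statement of `rho_eq_one_of_inertia`. -/
def InertiaStmt (N n : ℕ) : Prop :=
  ∀ (A : ValuationSubring Kbar) (ℓ : ℕ), ℓ.Prime → A.LiesOverPrime ℓ → KL N A n →
    ∀ σ : GQ, σ ∈ A.inertiaSubgroupIn ℚ → rho N n σ = 1

/-- The statement of `HeckeOp.eichler_shimura`. -/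
def ESStmt (N n : ℕ) : Prop :=
  ∀ (ℓ : ℕ) [NeZero ℓ] (H : HeckeOp N ℓ), ℓ.Prime → ∀ A : ValuationSubring Kbar,
    A.LiesOverPrime ℓ → KL N A n → ∀ σ : GQ, A.IsFrobeniusAt σ ℓ → ∀ x : W N n,
      rho N n σ (rho N n σ x) - H.TW n (rho N n σ x) + ℓ • x = 0

/-- A family of multiplicative Hecke operators at all primes not dividing `N`. -/
abbrev HeckeFamily (N : ℕ) : Type :=
  ∀ (ℓ : ℕ) [NeZero ℓ], ℓ.Prime → ¬ ℓ ∣ N → HeckeOp N ℓ

section Op

variable (N n : ℕ) (S : Finset ℕ) (H : HeckeFamily N)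

/-- `m` is a prime not dividing `N` outside `S`. -/
def Good (m : ℕ) : Prop := m.Prime ∧ ¬ m ∣ N ∧ m ∉ S

open Classical in
/-- The operator by which `X_m` acts: `T_m` for the good primes `m`, and `0` otherwise. -/
def opT (m : ℕ) : AddMonoid.End (W N n) :=
  if h : Good N S m then
    haveI : NeZero m := ⟨h.1.ne_zero⟩
    (H m h.1 h.2.1).TW n
  else 0

theorem opT_of_good {m : ℕ} [NeZero m] (h : Good N S m) :
    opT N n S H m = (H m h.1 h.2.1).TW n := by
  unfold opT
  rw [dif_pos h]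

theorem opT_of_not_good {m : ℕ} (h : ¬ Good N S m) : opT N n S H m = 0 := by
  unfold opT
  rw [dif_neg h]

theorem commute_opT (i j : ℕ) : Commute (opT N n S H i) (opT N n S H j) := by
  by_cases hi : Good N S i
  swap
  · rw [opT_of_not_good N n S H hi]; exact Commute.zero_left _
  by_cases hj : Good N S j
  swap
  · rw [opT_of_not_good N n S H hj]; exact Commute.zero_right _
  rcases eq_or_ne i j with rfl | hij
  · exact Commute.refl _
  have : NeZero i := ⟨hi.1.ne_zero⟩
  have : NeZero j := ⟨hj.1.ne_zero⟩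
  rw [opT_of_good N n S H hi, opT_of_good N n S H hj]
  exact Level.commute_TW ((Nat.coprime_primes hi.1 hj.1).2 hij) _ _ n

theorem commute_rho_opT (σ : GQ) (i : ℕ) : Commute (rho N n σ) (opT N n S H i) := by
  by_cases hi : Good N S i
  swap
  · rw [opT_of_not_good N n S H hi]; exact Commute.zero_right _
  have : NeZero i := ⟨hi.1.ne_zero⟩
  rw [opT_of_good N n S H hi]
  exact Level.commute_rho_TW _ n σ

/-- The action of the abstract Hecke algebra `ℤ[X_m]` on the Kummer model: `X_m` acts as `T_m` for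
the good primes `m` and as `0` for all other `m`. -/
def heckeHom : S30.HA →+* Module.End ℤ (W N n) :=
  haHom (opT N n S H) (commute_opT N n S H)

theorem heckeHom_X_of_good {m : ℕ} [NeZero m] (h : Good N S m) (x : W N n) :
    heckeHom N n S H (MvPolynomial.X m) x = (H m h.1 h.2.1).TW n x := by
  unfold heckeHom
  rw [haHom_X, linT_apply, opT_of_good N n S H h]

theorem heckeHom_X_of_not_good {m : ℕ} (h : ¬ Good N S m) :
    heckeHom N n S H (MvPolynomial.X m) = 0 := by
  unfold heckeHom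
  rw [haHom_X]
  refine LinearMap.ext fun x => ?_
  rw [linT_apply, opT_of_not_good N n S H h]
  rfl

end Op

/-- The faithfulness input (blocks M, H, NV): a polynomial in the Hecke operators killing the
Kummer model `W N (p ^ k)` kills the eigensystem `a` modulo `p ^ k`. -/
def FaithfulStmt (N p : ℕ) (S : Finset ℕ) (H : HeckeFamily N) {𝒪 : Type} [CommRing 𝒪] (a : ℕ → 𝒪)
    (k : ℕ) : Prop :=
  ∀ P : S30.HA, heckeHom N (p ^ k) S H P = 0 →
    MvPolynomial.aeval a P ∈ Ideal.span {((p ^ k : ℕ) : 𝒪)}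

/-- **Deliverable of block E.**  The Kummer model `W N (p ^ k)` as a layer of a Hecke-Galois
tower. -/
def level (N p : ℕ) [NeZero N] (S : Finset ℕ) {𝒪 : Type} [CommRing 𝒪] (a : ℕ → 𝒪) (k : ℕ)
    (hp : p.Prime) (hpS : p ∈ S) (hNS : ∀ q : ℕ, q.Prime → q ∣ N → q ∈ S)
    (hKL : KLStatement) (H : HeckeFamily N)
    (hI : InertiaStmt N (p ^ k)) (hES : ESStmt N (p ^ k))
    (hfin : Finite (W N (p ^ k))) (hfaith : FaithfulStmt N p S H a k) :
    S30.Level N p S a k :=
  letI : Module S30.HA (W N (p ^ k)) :=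
    haModule (opT N (p ^ k) S H) (commute_opT N (p ^ k) S H)
  { W := W N (p ^ k)
    ρ := haRep (opT N (p ^ k) S H) (commute_opT N (p ^ k) S H) (rho N (p ^ k))
      (commute_rho_opT N (p ^ k) S H)
    pow_smul := nsmul_W
    finiteLevel := by
      obtain ⟨L, hL, h⟩ := exists_finite_level_rho N (p ^ k)
      refine ⟨L, hL, fun σ hσ => LinearMap.ext fun w => ?_⟩
      rw [haRep_apply, h σ hσ]
      rfl
    unramified := by
      rintro q hqp hqN hqne σ ⟨A, hA, hσ⟩
      have : Fact q.Prime := ⟨hqp⟩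
      have hkl : KL N A (p ^ k) := hKL N q hqN A hA (p ^ k) fun hd =>
        hqne ((Nat.prime_dvd_prime_iff_eq hqp hp).1 (hqp.dvd_of_dvd_pow hd))
      refine LinearMap.ext fun w => ?_
      rw [haRep_apply, hI A q hqp hA hkl σ hσ]
      rfl
    eichlerShimura := by
      rintro ℓ hℓ hℓS σ ⟨A, hA, hσ⟩ w
      have : Fact ℓ.Prime := ⟨hℓ⟩
      have : NeZero ℓ := ⟨hℓ.ne_zero⟩
      have hℓN : ¬ ℓ ∣ N := fun hd => hℓS (hNS ℓ hℓ hd)
      have hkl : KL N A (p ^ k) := hKL N ℓ hℓN A hA (p ^ k) fun hd =>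
        hℓS (((Nat.prime_dvd_prime_iff_eq hℓ hp).1 (hℓ.dvd_of_dvd_pow hd)) ▸ hpS)
      rw [haRep_apply, haRep_apply, haModule_X_smul, opT_of_good N (p ^ k) S H ⟨hℓ, hℓN, hℓS⟩]
      exact hES ℓ _ hℓ A hA hkl σ hσ w
    faithful := by
      intro P hP
      exact hfaith P (LinearMap.ext fun w => hP w) }

end Fermat.Agent.GAL.E

end
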