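/-
Cluster GAL, block E (helper203).  Assembly: block E + a family of Hecke operators + the multiplier
map (block M/NV) give the structures `GAL.Tower.KummerPackage` (helper46) and `GAL.KummerLevel`
(helper216).
-/
import Fermat.Agent.GAL.E.Package
import Fermat.Agent.GAL.E.Level
import Fermat.Agent.GAL.Tower.Contract
import Fermat.Agent.GAL.Interface

set_option autoImplicit false

noncomputable section

namespace Fermat.Agent.GAL.E

open ModularCurve AlgebraicCurve Fermat.Agent.S24 Fermat.Agent.S24.B CongruenceSubgroup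
open Fermat.Agent.S16.Lift Fermat.Agent.Lib.HeckeHom

/-- A family of multiplicative Hecke operators at all primes not dividing `N`. -/
abbrev HeckeFam (N : ℕ) : Type :=
  ∀ (ℓ : ℕ) (hℓ : ℓ.Prime), ¬ ℓ ∣ N → @HeckeOp N ℓ ⟨hℓ.ne_zero⟩

/-- The Hecke operator `T_ℓ` on `W N n` of a family. -/
def HeckeFam.TW {N : ℕ} (H : HeckeFam N) (n ℓ : ℕ) (hℓ : ℓ.Prime) (hℓN : ¬ ℓ ∣ N) :
    W N n →+ W N n :=
  @HeckeOp.TW N ℓ ⟨hℓ.ne_zero⟩ (H ℓ hℓ hℓN) n

/-- **Block E + multiplier map ⟹ `KummerPackage`.** -/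
def kummerPackage (hKL : KLStatement) (N n : ℕ) [NeZero N] (H : HeckeFam N)
    (mult : W N n →+ (Additive (Gamma0 N) →+ ZMod n))
    (mult_injective : Function.Injective mult)
    (mult_mem : ∀ w, mult w ∈ homPE N (ZMod n))
    (mult_surjective : ∀ ψ ∈ homPE N (ZMod n), ∃ w, mult w = ψ)
    (mult_T : ∀ (ℓ : ℕ) (hℓ : ℓ.Prime) (hℓN : ¬ ℓ ∣ N) (w : W N n),
      mult (H.TW n ℓ hℓ hℓN w) = heckeHomT hℓ hℓN (mult w)) :
    Fermat.Agent.GAL.Tower.KummerPackage N n where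
  W := W N n
  ρ σ := rho N n σ
  ρ_one := pkg_rho_one N n
  ρ_mul := pkg_rho_mul N n
  T ℓ hℓ hℓN := H.TW n ℓ hℓ hℓN
  T_ρ ℓ hℓ hℓN σ w := @pkg_T_rho N ℓ ⟨hℓ.ne_zero⟩ (H ℓ hℓ hℓN) n σ w
  openStab := pkg_openStab N n
  unramified q hq hqN hqn σ hσ w := pkg_unramified hKL N n q hq hqN hqn σ hσ w
  eichlerShimura ℓ hℓ hℓN hℓn σ hσ w :=
    @pkg_eichlerShimura hKL N ℓ _ ⟨hℓ.ne_zero⟩ (H ℓ hℓ hℓN) n hℓ hℓN hℓn σ hσ w
  mult := mult
  mult_injective := mult_injective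
  mult_mem := mult_mem
  mult_surjective := mult_surjective
  mult_T := mult_T

theorem finite_W_of_equiv {N n : ℕ} [NeZero N] (hn : 0 < n) (mult : W N n ≃+ homPE N (ZMod n)) :
    Finite (W N n) := by
  have h1 : Finite (homPE N (ZMod n)) := by
    apply Nat.finite_of_card_ne_zero
    rw [card_homPE N n hn]
    exact (pow_pos hn _).ne'
  exact Finite.of_equiv _ mult.symm.toEquiv

/-- `rho` with values in `ℤ`-linear maps. -/
def rhoLin (N n : ℕ) : GQ →* Module.End ℤ (W N n) where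
  toFun σ := AddMonoidHom.toIntLinearMap (rho N n σ : W N n →+ W N n)
  map_one' := LinearMap.ext fun w => pkg_rho_one N n w
  map_mul' σ τ := LinearMap.ext fun w => pkg_rho_mul N n σ τ w

theorem rhoLin_apply (N n : ℕ) (σ : GQ) (w : W N n) : rhoLin N n σ w = rho N n σ w := rfl

/-- **Block E + multiplier isomorphism ⟹ `KummerLevel`.** -/
def kummerLevel (hKL : KLStatement) (N n : ℕ) [NeZero N] (hn : 0 < n) (H : HeckeFam N)
    (mult : W N n ≃+ homPE N (ZMod n))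
    (mult_T : ∀ (ℓ : ℕ) (hℓ : ℓ.Prime) (hℓN : ¬ ℓ ∣ N) (w : W N n),
      ((mult (H.TW n ℓ hℓ hℓN w) : homPE N (ZMod n)) : Additive (Gamma0 N) →+ ZMod n) =
        heckeHomT hℓ hℓN ((mult w : homPE N (ZMod n)) : Additive (Gamma0 N) →+ ZMod n)) :
    Fermat.Agent.GAL.KummerLevel N n where
  W := W N n
  T ℓ := open Classical in
    if h : ℓ.Prime ∧ ¬ ℓ ∣ N then (H.TW n ℓ h.1 h.2).toIntLinearMap else 0
  ρ := rhoLin N n
  ρ_T g ℓ hℓ hℓN := by
    refine LinearMap.ext fun w => ?_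
    rw [dif_pos ⟨hℓ, hℓN⟩]
    exact (@pkg_T_rho N ℓ ⟨hℓ.ne_zero⟩ (H ℓ hℓ hℓN) n g w).symm
  finiteLevel := by
    have := finite_W_of_equiv hn mult
    obtain ⟨L, hL, h⟩ := exists_finite_level_rho N n
    refine ⟨L, hL, fun σ hσ => LinearMap.ext fun w => ?_⟩
    show rho N n σ w = w
    rw [h σ hσ]
    rfl
  unramified q hq hqNn σ hσ := by
    refine LinearMap.ext fun w => ?_
    exact pkg_unramified hKL N n q hq (fun h => hqNn (h.mul_right n))
      (fun h => hqNn (h.mul_left N)) σ hσ w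
  eichlerShimura ℓ hℓ hℓNn σ hσ w := by
    have hℓN : ¬ ℓ ∣ N := fun h => hℓNn (h.mul_right n)
    rw [dif_pos ⟨hℓ, hℓN⟩]
    exact @pkg_eichlerShimura hKL N ℓ _ ⟨hℓ.ne_zero⟩ (H ℓ hℓ hℓN) n hℓ hℓN
      (fun h => hℓNn (h.mul_left N)) σ hσ w
  mult := mult
  mult_T ℓ hℓ hℓN w := by
    rw [dif_pos ⟨hℓ, hℓN⟩]
    exact mult_T ℓ hℓ hℓN w

end Fermat.Agent.GAL.E

end
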