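/-
Cluster GAL, block E (helper203).  The multiplicative Hecke operators exist:
`heckeOp N ℓ hℓ hℓN : HeckeOp N ℓ` with `T = heckeF N ℓ = Norm_α ∘ β`.
-/
import Fermat.Agent.GAL.E.QExp
import Fermat.Agent.GAL.E.KumHecke
import Fermat.Agent.GAL.E.ToPackage

set_option autoImplicit false

noncomputable section

namespace Fermat.Agent.GAL.E

open ModularCurve AlgebraicCurve Fermat.Agent.S24 Fermat.Agent.S24.B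

/-- **The multiplicative Hecke operator** `T_ℓ`, `ℓ` prime, `ℓ ∤ N`. -/
def heckeOp (N ℓ : ℕ) [NeZero N] [NeZero ℓ] (hℓ : ℓ.Prime) (hℓN : ¬ ℓ ∣ N) : HeckeOp N ℓ where
  T := heckeF N ℓ
  qExpand_T := qExpand_heckeF N ℓ hℓ hℓN
  isKum := fun _ _ hu => IsKum.heckeF ℓ hu

theorem heckeOp_T (N ℓ : ℕ) [NeZero N] [NeZero ℓ] (hℓ : ℓ.Prime) (hℓN : ¬ ℓ ∣ N) :
    (heckeOp N ℓ hℓ hℓN).T = heckeF N ℓ := rfl

/-- every `HeckeOp` is `heckeF` -/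
theorem HeckeOp.T_eq_heckeF {N ℓ : ℕ} [NeZero N] [NeZero ℓ] (H : HeckeOp N ℓ) (hℓ : ℓ.Prime)
    (hℓN : ¬ ℓ ∣ N) : H.T = heckeF N ℓ := H.T_eq (heckeOp N ℓ hℓ hℓN)

theorem nonempty_heckeOp (N ℓ : ℕ) [NeZero N] [NeZero ℓ] (hℓ : ℓ.Prime) (hℓN : ¬ ℓ ∣ N) :
    Nonempty (HeckeOp N ℓ) := ⟨heckeOp N ℓ hℓ hℓN⟩

/-- The family of all Hecke operators at level `N`. -/
def heckeFam (N : ℕ) [NeZero N] : HeckeFam N := fun ℓ hℓ hℓN =>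
  @heckeOp N ℓ _ ⟨hℓ.ne_zero⟩ hℓ hℓN

/-- The Hecke operator `T_ℓ` on the Kummer model. -/
def TT (N n ℓ : ℕ) [NeZero N] (hℓ : ℓ.Prime) (hℓN : ¬ ℓ ∣ N) : W N n →+ W N n :=
  (heckeFam N).TW n ℓ hℓ hℓN

end Fermat.Agent.GAL.E

end
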