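/-
Cluster GAL, block E.  TASK GAL-E9: the Hecke operator on `A`-integral elements and its reduction
(Kronecker congruence `T_ℓ x ≡ x(q^ℓ) · Frob(x)`).
-/
import Fermat.Agent.GAL.E.HeckeBasic
import Fermat.Agent.GAL.E.Frob
import Fermat.Agent.GAL.E.Bound

set_option autoImplicit false

noncomputable section

namespace Fermat.Agent.GAL.E

open ModularCurve AlgebraicCurve Fermat.Agent.S24 Fermat.Agent.S24.B

/-- `coeffMap` commutes with `qExpand` -/
theorem coeffMap_qExpand_comm {R S : Type*} [CommRing R] [CommRing S] (f : R →+* S) (n : ℕ)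
    [NeZero n] (x : LaurentSeries R) :
    coeffMap f (qExpand R n x) = qExpand S n (coeffMap f x) := by
  ext k
  by_cases hk : (n : ℤ) ∣ k
  · obtain ⟨m, rfl⟩ := hk
    rw [coeffMap_coeff, qExpand_coeff_mul, qExpand_coeff_mul, coeffMap_coeff]
  · rw [coeffMap_coeff, qExpand_coeff_of_not_dvd n _ hk, qExpand_coeff_of_not_dvd n _ hk, map_zero]

/-- a series supported on the multiples of `n` is of the form `V(q^n)` -/
theorem exists_qExpand_eq {R : Type*} [CommRing R] (n : ℕ) [NeZero n] (P : LaurentSeries R)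
    (hP : ∀ k : ℤ, ¬ (n : ℤ) ∣ k → P.coeff k = 0) : ∃ V : LaurentSeries R, qExpand R n V = P := by
  have hn : (0 : ℤ) < n := by exact_mod_cast Nat.pos_of_ne_zero (NeZero.ne n)
  have hpwo : (Function.support fun k : ℤ => P.coeff ((n : ℤ) * k)).IsPWO := by
    refine Set.IsWF.isPWO (BddBelow.isWF ⟨min P.order 0, ?_⟩)
    intro k hk
    by_contra hlt
    rw [not_le] at hlt
    have hk0 : k < 0 := lt_of_lt_of_le hlt (min_le_right _ _)
    have hkB : k < P.order := lt_of_lt_of_le hlt (min_le_left _ _)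
    have h2 : (n : ℤ) * k ≤ 1 * k := mul_le_mul_of_nonpos_right (by omega) hk0.le
    exact hk (HahnSeries.coeff_eq_zero_of_lt_order (by omega))
  refine ⟨⟨fun k => P.coeff ((n : ℤ) * k), hpwo⟩, ?_⟩
  ext k
  by_cases hk : (n : ℤ) ∣ k
  · obtain ⟨m, rfl⟩ := hk
    rw [qExpand_coeff_mul]
  · rw [qExpand_coeff_of_not_dvd n _ hk, hP k hk]

theorem HeckeOp.exists_T_red {N ℓ : ℕ} [Fact ℓ.Prime] [NeZero ℓ] (H : HeckeOp N ℓ)
    (A : ValuationSubring Kbar) [CharP (IsLocalRing.ResidueField A) ℓ] (hA : A.LiesOverPrime ℓ)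
    (x : LaurentSeries A) (hx : incl A x ∈ modularFunctionFieldBar N) :
    ∃ t : LaurentSeries A, incl A t = ((H.T ⟨incl A x, hx⟩ : FN N) : LaurentSeries Kbar) ∧
      red A t = qExpand _ ℓ (red A x) *
        coeffMap (frobenius (IsLocalRing.ResidueField A) ℓ) (red A x) := by
  have hℓ : ℓ.Prime := Fact.out
  set y : LaurentSeries Kbar := ((H.T ⟨incl A x, hx⟩ : FN N) : LaurentSeries Kbar) with hy
  have hq : qExpand Kbar ℓ y = qExpand Kbar (ℓ * ℓ) (incl A x) *
      ∏ b ∈ Finset.range ℓ, twist (zetaK ℓ ^ b) (incl A x) := H.qExpand_T ⟨incl A x, hx⟩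
  -- the twisted series
  have htw : ∀ b : ℕ, ∃ x' : LaurentSeries A, incl A x' = twist (zetaK ℓ ^ b) (incl A x) ∧
      red A x' = red A x := fun b =>
    exists_twist A ℓ hℓ hA (zetaK ℓ ^ b)
      (by rw [← pow_mul, mul_comm, pow_mul, (isPrimitiveRoot_zetaK ℓ).pow_eq_one, one_pow]) x
  choose xb hxb1 hxb2 using htw
  set P : LaurentSeries A := ∏ b ∈ Finset.range ℓ, xb b with hPdef
  have hP1 : incl A P = ∏ b ∈ Finset.range ℓ, twist (zetaK ℓ ^ b) (incl A x) := by
    rw [hPdef, map_prod]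
    exact Finset.prod_congr rfl fun b _ => hxb1 b
  have hP2 : red A P = qExpand _ ℓ
      (coeffMap (frobenius (IsLocalRing.ResidueField A) ℓ) (red A x)) := by
    rw [← pow_char_eq_qExpand, hPdef, map_prod, Finset.prod_congr rfl fun b _ => hxb2 b,
      Finset.prod_const, Finset.card_range]
  rw [← hP1] at hq
  -- `P` is supported on the multiples of `ℓ`
  have hsupp : ∀ k : ℤ, ¬ (ℓ : ℤ) ∣ k → P.coeff k = 0 := by
    intro k hk
    rcases eq_or_ne (incl A x) 0 with h0 | h0
    · have hx0 : x = 0 := incl_injective A (by rw [h0, map_zero])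
      have hP0 : incl A P = 0 := by
        rw [hP1, h0]
        refine Finset.prod_eq_zero (Finset.mem_range.2 hℓ.pos) (map_zero _)
      have : P = 0 := incl_injective A (by rw [hP0, map_zero])
      rw [this, HahnSeries.coeff_zero]
    · have hne : qExpand Kbar (ℓ * ℓ) (incl A x) ≠ 0 := fun h =>
        h0 (qExpand_injective (ℓ * ℓ) (by rw [h, map_zero]))
      have h1 : incl A P = qExpand Kbar ℓ (y / qExpand Kbar ℓ (incl A x)) := by
        rw [map_div₀, qExpand_qExpand, hq, mul_div_cancel_left₀ _ hne]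
      have h2 : (incl A P).coeff k = 0 := by
        rw [h1]
        exact qExpand_coeff_of_not_dvd ℓ _ hk
      rw [coeff_incl] at h2
      exact_mod_cast h2
  obtain ⟨V, hV⟩ := exists_qExpand_eq ℓ P hsupp
  refine ⟨qExpand A ℓ x * V, ?_, ?_⟩
  · apply qExpand_injective (R := Kbar) ℓ
    rw [hq, map_mul, map_mul, ← coeffMap_qExpand_comm, ← coeffMap_qExpand_comm, hV,
      qExpand_qExpand, coeffMap_qExpand_comm]
  · rw [map_mul, coeffMap_qExpand_comm]
    congr 1
    apply qExpand_injective (R := IsLocalRing.ResidueField A) ℓ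
    rw [← coeffMap_qExpand_comm, hV, hP2]

end Fermat.Agent.GAL.E

end
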